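/-
S28 / helper267 — pure algebra: characteristic polynomial and Lagrange polynomial of a finite
family, and order estimates for families of Laurent series with a single pole.
-/
import Mathlib

set_option autoImplicit false
set_option linter.unusedSectionVars false

noncomputable section

open Polynomial

namespace Fermat.Agent.S28.H267

/-! ### Orders and leading coefficients via coefficients -/

section Order

variable {R : Type*} [CommRing R]

theorem orderTop_eq_of_coeff {φ : LaurentSeries R} {a : ℤ} (h : ∀ m < a, φ.coeff m = 0)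
    (ha : φ.coeff a ≠ 0) : φ.orderTop = a := by
  refine HahnSeries.orderTop_eq_of_le (by simpa using ha) (fun g hg => ?_)
  by_contra hlt
  exact hg (h g (not_le.mp hlt))

theorem ne_zero_of_orderTop_eq {φ : LaurentSeries R} {a : ℤ} (h : φ.orderTop = a) : φ ≠ 0 := by
  rintro rfl
  rw [HahnSeries.orderTop_zero] at h
  exact WithTop.top_ne_coe h

theorem leadingCoeff_eq_coeff_of_orderTop {φ : LaurentSeries R} {a : ℤ} (h : φ.orderTop = a) :
    φ.leadingCoeff = φ.coeff a := by
  have hne := ne_zero_of_orderTop_eq h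
  have h1 := HahnSeries.order_eq_orderTop_of_ne_zero hne
  rw [h] at h1
  rw [HahnSeries.leadingCoeff_eq, WithTop.coe_injective h1]

theorem coeff_ne_zero_of_orderTop_eq {φ : LaurentSeries R} {a : ℤ} (h : φ.orderTop = a) :
    φ.coeff a ≠ 0 :=
  HahnSeries.coeff_orderTop_ne h

theorem coeff_eq_zero_of_lt_of_orderTop_eq {φ : LaurentSeries R} {a : ℤ} (h : φ.orderTop = a)
    {m : ℤ} (hm : m < a) : φ.coeff m = 0 :=
  HahnSeries.coeff_eq_zero_of_lt_orderTop (by rw [h]; exact_mod_cast hm)

theorem coeff_eq_zero_of_le_of_lt_orderTop {φ : LaurentSeries R} {a : ℤ}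
    (h : (a : WithTop ℤ) < φ.orderTop) {m : ℤ} (hm : m ≤ a) : φ.coeff m = 0 :=
  HahnSeries.coeff_eq_zero_of_lt_orderTop (lt_of_le_of_lt (by exact_mod_cast hm) h)

theorem lt_orderTop_of_coeff {φ : LaurentSeries R} {a : ℤ} (h : ∀ m ≤ a, φ.coeff m = 0) :
    (a : WithTop ℤ) < φ.orderTop := by
  by_contra hcon
  replace hcon := not_lt.mp hcon
  have hne : φ ≠ 0 := by
    rintro rfl
    rw [HahnSeries.orderTop_zero] at hcon
    exact absurd hcon (by simp)
  have h1 := HahnSeries.order_eq_orderTop_of_ne_zero hne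
  rw [← h1] at hcon
  have h2 : φ.order ≤ a := by exact_mod_cast hcon
  exact HahnSeries.coeff_orderTop_ne h1.symm (h _ h2)

end Order

/-! ### Series with coefficients in a subring -/

section CoeffSubring

variable {R : Type*} [CommRing R]

/-- The subring of Laurent series all of whose coefficients lie in the subring `C`. -/
def coeffSubring (C : Subring R) : Subring (LaurentSeries R) where
  carrier := {φ | ∀ m, φ.coeff m ∈ C}
  mul_mem' {a b} ha hb m := by
    rw [HahnSeries.coeff_mul]
    exact C.sum_mem fun ij _ => C.mul_mem (ha _) (hb _)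
  one_mem' m := by
    rw [HahnSeries.coeff_one]
    split_ifs
    · exact C.one_mem
    · exact C.zero_mem
  add_mem' {a b} ha hb m := by
    rw [HahnSeries.coeff_add]
    exact C.add_mem (ha _) (hb _)
  zero_mem' m := by
    rw [HahnSeries.coeff_zero]
    exact C.zero_mem
  neg_mem' {a} ha m := by
    rw [HahnSeries.coeff_neg]
    exact C.neg_mem (ha _)

theorem mem_coeffSubring {C : Subring R} {φ : LaurentSeries R} :
    φ ∈ coeffSubring C ↔ ∀ m, φ.coeff m ∈ C := Iff.rfl

end CoeffSubring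

/-! ### Characteristic and Lagrange polynomials of a finite family -/

section Polys

variable {Θ : Type*} [Fintype Θ] [DecidableEq Θ]
variable {R : Type*} [CommRing R] {S : Type*} [CommRing S]

/-- `∏ θ, (X - a θ)`. -/
def cpoly (a : Θ → R) : R[X] := ∏ θ, (X - C (a θ))

/-- `∑ θ, b θ * ∏_{θ' ≠ θ} (X - a θ')`. -/
def lpoly (a b : Θ → R) : R[X] :=
  ∑ θ, C (b θ) * ∏ θ' ∈ Finset.univ.erase θ, (X - C (a θ'))

theorem cpoly_map (f : R →+* S) (a : Θ → R) : (cpoly a).map f = cpoly (fun θ => f (a θ)) := by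
  simp only [cpoly, Polynomial.map_prod, Polynomial.map_sub, Polynomial.map_X, Polynomial.map_C]

theorem lpoly_map (f : R →+* S) (a b : Θ → R) :
    (lpoly a b).map f = lpoly (fun θ => f (a θ)) (fun θ => f (b θ)) := by
  simp only [lpoly, Polynomial.map_sum, Polynomial.map_mul, Polynomial.map_prod,
    Polynomial.map_sub, Polynomial.map_X, Polynomial.map_C]

theorem cpoly_comp_equiv (e : Θ ≃ Θ) (a : Θ → R) : cpoly (fun θ => a (e θ)) = cpoly a := by
  unfold cpoly
  exact Fintype.prod_equiv e _ _ fun _ => rfl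

theorem lpoly_comp_equiv (e : Θ ≃ Θ) (a b : Θ → R) :
    lpoly (fun θ => a (e θ)) (fun θ => b (e θ)) = lpoly a b := by
  unfold lpoly
  refine Fintype.sum_equiv e _ _ fun θ => ?_
  congr 1
  refine Finset.prod_equiv e (fun θ' => ?_) fun _ _ => rfl
  simp only [Finset.mem_erase, Finset.mem_univ, and_true, ne_eq, EmbeddingLike.apply_eq_iff_eq]

theorem cpoly_monic (a : Θ → R) : (cpoly a).Monic :=
  Polynomial.monic_prod_of_monic _ _ fun θ _ => Polynomial.monic_X_sub_C (a θ)

theorem cpoly_natDegree [Nontrivial R] (a : Θ → R) : (cpoly a).natDegree = Fintype.card Θ := by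
  unfold cpoly
  rw [Polynomial.natDegree_prod_of_monic _ _ fun θ _ => Polynomial.monic_X_sub_C (a θ)]
  simp only [Polynomial.natDegree_X_sub_C, Finset.sum_const, smul_eq_mul, mul_one]
  rfl

theorem cpoly_eval (a : Θ → R) (θ : Θ) : (cpoly a).eval (a θ) = 0 := by
  unfold cpoly
  rw [Polynomial.eval_prod]
  exact Finset.prod_eq_zero (Finset.mem_univ θ) (by simp)

theorem lpoly_eval (a b : Θ → R) (θ₀ : Θ) :
    (lpoly a b).eval (a θ₀) = b θ₀ * ∏ θ ∈ Finset.univ.erase θ₀, (a θ₀ - a θ) := by
  unfold lpoly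
  rw [Polynomial.eval_finsetSum, Finset.sum_eq_single θ₀]
  · simp [Polynomial.eval_prod]
  · intro θ _ hne
    rw [Polynomial.eval_mul, Polynomial.eval_prod]
    rw [Finset.prod_eq_zero (Finset.mem_erase.mpr ⟨hne.symm, Finset.mem_univ θ₀⟩) (by simp),
      mul_zero]
  · intro h
    exact absurd (Finset.mem_univ θ₀) h

theorem lpoly_natDegree_lt [Nontrivial R] [Nonempty Θ] (a b : Θ → R) :
    (lpoly a b).natDegree < Fintype.card Θ := by
  unfold lpoly
  have hcard : 0 < Fintype.card Θ := Fintype.card_pos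
  refine lt_of_le_of_lt (Polynomial.natDegree_sum_le_of_forall_le _ _ (n := Fintype.card Θ - 1)
    fun θ _ => ?_) (by omega)
  refine le_trans (Polynomial.natDegree_C_mul_le _ _) ?_
  rw [Polynomial.natDegree_prod_of_monic _ _ fun θ _ => Polynomial.monic_X_sub_C (a θ)]
  simp only [Polynomial.natDegree_X_sub_C, Finset.sum_const, smul_eq_mul, mul_one]
  rw [Finset.card_erase_of_mem (Finset.mem_univ θ), Finset.card_univ]

/-- `cpoly a = (X - a θ₀) * ∏_{θ ≠ θ₀} (X - a θ)`. -/
theorem cpoly_eq_mul (a : Θ → R) (θ₀ : Θ) :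
    cpoly a = (X - C (a θ₀)) * ∏ θ ∈ Finset.univ.erase θ₀, (X - C (a θ)) := by
  unfold cpoly
  exact (Finset.mul_prod_erase Finset.univ (fun θ => X - C (a θ)) (Finset.mem_univ θ₀)).symm

theorem cpoly_coeff_zero (a : Θ → R) :
    (cpoly a).coeff 0 = ∏ θ, (-(a θ)) := by
  unfold cpoly
  rw [Polynomial.coeff_zero_eq_eval_zero, Polynomial.eval_prod]
  simp

/-- All coefficients of `cpoly a` lie in a subring containing the `a θ`. -/
theorem cpoly_coeff_mem (T : Subring R) (a : Θ → R) (ha : ∀ θ, a θ ∈ T) (k : ℕ) :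
    (cpoly a).coeff k ∈ T := by
  have h : cpoly a ∈ Polynomial.lifts T.subtype := by
    unfold cpoly
    refine Subsemiring.prod_mem _ fun θ _ => ?_
    rw [Polynomial.mem_lifts]
    exact ⟨X - C ⟨a θ, ha θ⟩, by simp⟩
  rw [Polynomial.lifts_iff_coeff_lifts] at h
  obtain ⟨x, hx⟩ := h k
  rw [← hx]
  exact x.2

theorem lpoly_coeff_mem (T : Subring R) (a b : Θ → R) (ha : ∀ θ, a θ ∈ T) (hb : ∀ θ, b θ ∈ T)
    (k : ℕ) : (lpoly a b).coeff k ∈ T := by
  have h : lpoly a b ∈ Polynomial.lifts T.subtype := by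
    unfold lpoly
    refine Subsemiring.sum_mem _ fun θ _ => ?_
    refine Subsemiring.mul_mem _ ?_ ?_
    · rw [Polynomial.mem_lifts]
      exact ⟨C ⟨b θ, hb θ⟩, by simp⟩
    · refine Subsemiring.prod_mem _ fun θ' _ => ?_
      rw [Polynomial.mem_lifts]
      exact ⟨X - C ⟨a θ', ha θ'⟩, by simp⟩
  rw [Polynomial.lifts_iff_coeff_lifts] at h
  obtain ⟨x, hx⟩ := h k
  rw [← hx]
  exact x.2

theorem cpoly_derivative_eval (a : Θ → R) (θ₀ : Θ) :
    (derivative (cpoly a)).eval (a θ₀) = ∏ θ ∈ Finset.univ.erase θ₀, (a θ₀ - a θ) := by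
  rw [cpoly_eq_mul a θ₀, Polynomial.derivative_mul, Polynomial.eval_add, Polynomial.eval_mul,
    Polynomial.eval_mul, Polynomial.derivative_sub, Polynomial.derivative_X,
    Polynomial.derivative_C, sub_zero, Polynomial.eval_one, one_mul, Polynomial.eval_sub,
    Polynomial.eval_X, Polynomial.eval_C, sub_self, zero_mul, add_zero, Polynomial.eval_prod]
  exact Finset.prod_congr rfl fun θ _ => by simp

end Polys

/-! ### Order analysis for a family with a single pole -/

section OrderAnalysis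

variable {Θ : Type*} [Fintype Θ] [DecidableEq Θ]
variable {K : Type*} [Field K]

theorem withTop_lt_add_of_pos (a : ℤ) {b : WithTop ℤ} (hb : 0 < b) :
    (a : WithTop ℤ) < (a : WithTop ℤ) + b := by
  induction b using WithTop.recTopCoe with
  | top => simp
  | coe m =>
    have hm : 0 < m := by exact_mod_cast hb
    rw [← WithTop.coe_add]
    exact_mod_cast (by omega : a < a + m)

theorem coeff_X_sub_C_mul_eq (r : LaurentSeries K) (p : (LaurentSeries K)[X]) (k : ℕ) :
    ((X - C r) * p).coeff k = (X * p).coeff k - r * p.coeff k := by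
  rw [sub_mul, Polynomial.coeff_sub, Polynomial.coeff_C_mul]

/-- For a product `Q = ∏_{θ ∈ s} (X - υ θ)` with all `υ θ` of positive order, all non-leading
coefficients have positive order. -/
theorem prod_coeff_orderTop_pos (υ : Θ → LaurentSeries K) (s : Finset Θ)
    (hpos : ∀ θ ∈ s, 0 < (υ θ).orderTop) :
    (∀ k, k ≠ s.card → 0 < ((∏ θ ∈ s, (X - C (υ θ))).coeff k).orderTop) ∧
      (∏ θ ∈ s, (X - C (υ θ))).coeff s.card = 1 := by
  induction s using Finset.induction_on with
  | empty =>
    refine ⟨fun k hk => ?_, by simp⟩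
    rw [Finset.prod_empty, Polynomial.coeff_one, if_neg (by simpa using hk)]
    simp
  | insert a s ha ih =>
    obtain ⟨ih1, ih2⟩ := ih fun θ hθ => hpos θ (Finset.mem_insert_of_mem hθ)
    have hυa : 0 < (υ a).orderTop := hpos a (Finset.mem_insert_self a s)
    set Q := ∏ θ ∈ s, (X - C (υ θ)) with hQ
    have hnonneg : ∀ k, 0 ≤ (Q.coeff k).orderTop := by
      intro k
      by_cases hk : k = s.card
      · rw [hk, ih2, HahnSeries.orderTop_one]
      · exact (ih1 k hk).le
    have hmul : ∀ k, 0 < (υ a * Q.coeff k).orderTop := by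
      intro k
      rw [HahnSeries.orderTop_mul]
      exact add_pos_of_pos_of_nonneg hυa (hnonneg k)
    rw [Finset.prod_insert ha, Finset.card_insert_of_notMem ha]
    constructor
    · intro k hk
      rw [coeff_X_sub_C_mul_eq]
      refine lt_of_lt_of_le (lt_min ?_ (hmul k)) HahnSeries.min_orderTop_le_orderTop_sub
      rcases Nat.eq_zero_or_pos k with rfl | hk0
      · rw [Polynomial.coeff_X_mul_zero]
        simp
      · obtain ⟨j, rfl⟩ : ∃ j, k = j + 1 := ⟨k - 1, by omega⟩
        rw [Polynomial.coeff_X_mul]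
        exact ih1 j (by omega)
    · rw [coeff_X_sub_C_mul_eq, Polynomial.coeff_X_mul, ih2]
      have : Q.coeff (s.card + 1) = 0 := by
        apply Polynomial.coeff_eq_zero_of_natDegree_lt
        rw [hQ, Polynomial.natDegree_prod_of_monic _ _ fun θ _ => Polynomial.monic_X_sub_C (υ θ)]
        simp
      rw [this, mul_zero, sub_zero]

/-- **Orders of the coefficients of the characteristic polynomial** of a family with a single
pole at `θ₀` (of order `M`), all other members having positive order. -/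
theorem cpoly_orders (υ : Θ → LaurentSeries K) (θ₀ : Θ) (M : ℤ) (hM : 0 < M)
    (h0 : (υ θ₀).orderTop = ((-M : ℤ) : WithTop ℤ))
    (hpos : ∀ θ, θ ≠ θ₀ → 0 < (υ θ).orderTop) :
    ((cpoly υ).coeff (Fintype.card Θ - 1)).orderTop = ((-M : ℤ) : WithTop ℤ) ∧
      ((cpoly υ).coeff (Fintype.card Θ - 1)).leadingCoeff = -(υ θ₀).leadingCoeff ∧
      (∀ k, k + 1 < Fintype.card Θ →
        ((-M : ℤ) : WithTop ℤ) < ((cpoly υ).coeff k).orderTop) := by
  set s : Finset Θ := Finset.univ.erase θ₀ with hs
  have hcard : s.card = Fintype.card Θ - 1 := by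
    rw [hs, Finset.card_erase_of_mem (Finset.mem_univ θ₀), Finset.card_univ]
  obtain ⟨hQ1, hQ2⟩ := prod_coeff_orderTop_pos υ s fun θ hθ => hpos θ (Finset.ne_of_mem_erase hθ)
  set Q := ∏ θ ∈ s, (X - C (υ θ)) with hQ
  have hP : cpoly υ = (X - C (υ θ₀)) * Q := cpoly_eq_mul υ θ₀
  have hneg : ((-M : ℤ) : WithTop ℤ) < 0 := by exact_mod_cast (by omega : -M < 0)
  -- coefficients of `X * Q` below the top have positive order
  have hX : ∀ k, k ≠ s.card + 1 → 0 < ((X * Q).coeff k).orderTop := by
    intro k hk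
    rcases Nat.eq_zero_or_pos k with rfl | hk0
    · rw [Polynomial.coeff_X_mul_zero]
      simp
    · obtain ⟨j, rfl⟩ : ∃ j, k = j + 1 := ⟨k - 1, by omega⟩
      rw [Polynomial.coeff_X_mul]
      exact hQ1 j (by omega)
  have htop : (cpoly υ).coeff (Fintype.card Θ - 1) = -(υ θ₀) + (X * Q).coeff s.card := by
    rw [hP, coeff_X_sub_C_mul_eq, ← hcard, hQ2, mul_one]
    ring
  have hlt : (-(υ θ₀)).orderTop < ((X * Q).coeff s.card).orderTop := by
    rw [HahnSeries.orderTop_neg, h0]
    exact lt_trans hneg (hX _ (by omega))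
  refine ⟨?_, ?_, ?_⟩
  · rw [htop, HahnSeries.orderTop_add_eq_left hlt, HahnSeries.orderTop_neg, h0]
  · rw [htop, HahnSeries.leadingCoeff_add_eq_left hlt, HahnSeries.leadingCoeff_neg]
  · intro k hk
    rw [hP, coeff_X_sub_C_mul_eq]
    refine lt_of_lt_of_le (lt_min ?_ ?_) HahnSeries.min_orderTop_le_orderTop_sub
    · exact lt_trans hneg (hX k (by omega))
    · rw [HahnSeries.orderTop_mul, h0]
      exact withTop_lt_add_of_pos _ (hQ1 k (by omega))

theorem leadingCoeff_prod (s : Finset Θ) (f : Θ → LaurentSeries K) :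
    (∏ θ ∈ s, f θ).leadingCoeff = ∏ θ ∈ s, (f θ).leadingCoeff := by
  induction s using Finset.induction_on with
  | empty => simp
  | insert a s ha ih =>
    rw [Finset.prod_insert ha, Finset.prod_insert ha, HahnSeries.leadingCoeff_mul, ih]

theorem cpoly_coeff_zero_leadingCoeff (υ : Θ → LaurentSeries K) :
    ((cpoly υ).coeff 0).leadingCoeff = ∏ θ, (-(υ θ).leadingCoeff) := by
  rw [cpoly_coeff_zero, leadingCoeff_prod]
  exact Finset.prod_congr rfl fun θ _ => HahnSeries.leadingCoeff_neg

end OrderAnalysis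

end Fermat.Agent.S28.H267

end
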