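/-
S28 / helper267 — formal lemmas on polynomials in the `j`-series.
`jev R A = A(j)` for `A : R[X]`, as a Laurent series over `R`.
-/
import Mathlib
import Fermat.Prelude.Def_ModularCurve_X0ModL

set_option autoImplicit false

noncomputable section

open ModularCurve HahnSeries Polynomial

namespace Fermat.Agent.S28.H267

variable (R : Type*) [CommRing R]

/-- Evaluation of a polynomial at the `j`-series: `A ↦ A(j)`. -/
def jev : R[X] →+* LaurentSeries R :=
  Polynomial.eval₂RingHom (HahnSeries.C : R →+* LaurentSeries R) (jqModC R)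

variable {R}

theorem jev_apply (A : R[X]) :
    jev R A = ∑ i ∈ Finset.range (A.natDegree + 1), HahnSeries.C (A.coeff i) * jqModC R ^ i := by
  rw [jev, Polynomial.coe_eval₂RingHom, Polynomial.eval₂_eq_sum_range]

theorem jev_C (c : R) : jev R (Polynomial.C c) = HahnSeries.C c := by
  simp [jev]

theorem jev_X : jev R Polynomial.X = jqModC R := by
  simp [jev]

theorem coeff_C_mul (c : R) (x : LaurentSeries R) (m : ℤ) :
    (HahnSeries.C c * x).coeff m = c * x.coeff m := by
  rw [HahnSeries.C_mul_eq_smul, HahnSeries.coeff_smul, smul_eq_mul]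

theorem jev_coeff (A : R[X]) (m : ℤ) :
    (jev R A).coeff m =
      ∑ i ∈ Finset.range (A.natDegree + 1), A.coeff i * (jqModC R ^ i).coeff m := by
  rw [jev_apply, HahnSeries.coeff_sum]
  exact Finset.sum_congr rfl fun i _ => coeff_C_mul _ _ _

/-- Below `-deg A` all coefficients of `A(j)` vanish. -/
theorem jev_coeff_of_lt (A : R[X]) {m : ℤ} (hm : m < -(A.natDegree : ℤ)) :
    (jev R A).coeff m = 0 := by
  rw [jev_coeff]
  refine Finset.sum_eq_zero fun i hi => ?_
  have hi' : i ≤ A.natDegree := Nat.lt_succ_iff.mp (Finset.mem_range.mp hi)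
  rw [coeff_jqModC_pow_of_lt R (b := i) (m := m) (by omega), mul_zero]

/-- More generally, below `-n` for any bound `n ≥ deg A`. -/
theorem jev_coeff_of_lt' (A : R[X]) {n : ℕ} (hn : A.natDegree ≤ n) {m : ℤ} (hm : m < -(n : ℤ)) :
    (jev R A).coeff m = 0 :=
  jev_coeff_of_lt A (by omega)

/-- The coefficient of `A(j)` at `-n`, for `n ≥ deg A`, is `A.coeff n`. -/
theorem jev_coeff_neg (A : R[X]) {n : ℕ} (hn : A.natDegree ≤ n) :
    (jev R A).coeff (-(n : ℤ)) = A.coeff n := by
  rw [jev_coeff]
  rcases hn.lt_or_eq with h | h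
  · rw [Polynomial.coeff_eq_zero_of_natDegree_lt h]
    refine Finset.sum_eq_zero fun i hi => ?_
    have hi' : i ≤ A.natDegree := Nat.lt_succ_iff.mp (Finset.mem_range.mp hi)
    rw [coeff_jqModC_pow_of_lt R (b := i) (m := -(n : ℤ)) (by omega), mul_zero]
  · rw [Finset.sum_eq_single n]
    · rw [coeff_jqModC_pow_self, mul_one]
    · intro i hi hne
      have hi' : i ≤ A.natDegree := Nat.lt_succ_iff.mp (Finset.mem_range.mp hi)
      rw [coeff_jqModC_pow_of_lt R (b := i) (m := -(n : ℤ)) (by omega), mul_zero]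
    · intro hn'
      exact absurd (Finset.mem_range.mpr (by omega)) hn'

theorem jev_coeff_neg_natDegree (A : R[X]) :
    (jev R A).coeff (-(A.natDegree : ℤ)) = A.leadingCoeff :=
  jev_coeff_neg A le_rfl

/-- `j` is transcendental: `A(j) = 0 → A = 0`. -/
theorem jev_injective : Function.Injective (jev R) := by
  rw [injective_iff_map_eq_zero]
  intro A hA
  by_contra hne
  have h := jev_coeff_neg_natDegree A
  rw [hA, HahnSeries.coeff_zero] at h
  exact hne (Polynomial.leadingCoeff_eq_zero.mp h.symm)

/-- Degree bound from vanishing of low coefficients. -/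
theorem natDegree_lt_of_jev_coeff {A : R[X]} {K : ℕ}
    (h : ∀ m : ℤ, m ≤ -(K : ℤ) → (jev R A).coeff m = 0) : A = 0 ∨ A.natDegree < K := by
  by_cases hA : A = 0
  · exact Or.inl hA
  right
  by_contra hcon
  have h1 := h (-(A.natDegree : ℤ)) (by omega)
  rw [jev_coeff_neg_natDegree] at h1
  exact hA (Polynomial.leadingCoeff_eq_zero.mp h1)

theorem natDegree_le_of_jev_coeff {A : R[X]} {K : ℕ}
    (h : ∀ m : ℤ, m < -(K : ℤ) → (jev R A).coeff m = 0) : A.natDegree ≤ K := by
  by_cases hA : A = 0
  · simp [hA]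
  by_contra hcon
  have h1 := h (-(A.natDegree : ℤ)) (by omega)
  rw [jev_coeff_neg_natDegree] at h1
  exact hA (Polynomial.leadingCoeff_eq_zero.mp h1)

/-- Exact degree and leading coefficient from the lowest coefficient. -/
theorem natDegree_eq_of_jev_coeff {A : R[X]} {K : ℕ} {c : R} (hc : c ≠ 0)
    (h : ∀ m : ℤ, m < -(K : ℤ) → (jev R A).coeff m = 0)
    (hK : (jev R A).coeff (-(K : ℤ)) = c) : A.natDegree = K ∧ A.leadingCoeff = c := by
  have hle := natDegree_le_of_jev_coeff h
  have h2 := jev_coeff_neg A hle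
  rw [hK] at h2
  have hd : A.natDegree = K := by
    by_contra hne
    have hlt : A.natDegree < K := lt_of_le_of_ne hle hne
    rw [Polynomial.coeff_eq_zero_of_natDegree_lt hlt] at h2
    exact hc h2
  refine ⟨hd, ?_⟩
  rw [Polynomial.leadingCoeff, hd, ← h2]

/-- The integer coefficients of powers of `j` lie in every subring. -/
theorem coeff_jqModC_pow_mem (C : Subring R) (i : ℕ) (m : ℤ) :
    (jqModC R ^ i).coeff m ∈ C := by
  have h : jqModC R ^ i = coeffMap (Int.castRingHom R) (jqModC ℤ ^ i) := by
    rw [map_pow, coeffMap_jqModC]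
  rw [h, coeffMap_coeff, eq_intCast]
  exact intCast_mem C _

/-- **Coefficient control.** If all coefficients of `A(j)` lie in a subring `C`, then so do all
coefficients of `A`. -/
theorem coeff_mem_of_jev_coeff_mem (C : Subring R) :
    ∀ (n : ℕ) (A : R[X]), A.natDegree ≤ n → (∀ m, (jev R A).coeff m ∈ C) → ∀ k, A.coeff k ∈ C := by
  intro n
  induction n with
  | zero =>
    intro A hA h k
    have h0 := h 0
    have : (jev R A).coeff (-((0 : ℕ) : ℤ)) = A.coeff 0 := jev_coeff_neg A hA
    simp only [Nat.cast_zero, neg_zero] at this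
    rw [this] at h0
    rcases Nat.eq_zero_or_pos k with rfl | hk
    · exact h0
    · rw [Polynomial.coeff_eq_zero_of_natDegree_lt (by omega)]
      exact C.zero_mem
  | succ n ih =>
    intro A hA h k
    have hlead : A.coeff (n + 1) ∈ C := by
      have := jev_coeff_neg A hA
      rw [← this]
      exact h _
    set B : R[X] := A - Polynomial.C (A.coeff (n + 1)) * Polynomial.X ^ (n + 1) with hB
    have hBdeg : B.natDegree ≤ n := by
      rw [Polynomial.natDegree_le_iff_coeff_eq_zero]
      intro N hN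
      rw [hB, Polynomial.coeff_sub, Polynomial.coeff_C_mul, Polynomial.coeff_X_pow]
      by_cases hN1 : N = n + 1
      · subst hN1; simp
      · rw [if_neg hN1, mul_zero, sub_zero]
        exact Polynomial.coeff_eq_zero_of_natDegree_lt (by omega)
    have hBj : ∀ m, (jev R B).coeff m ∈ C := by
      intro m
      rw [hB, map_sub, map_mul, map_pow, jev_C, jev_X, HahnSeries.coeff_sub, coeff_C_mul]
      exact C.sub_mem (h m) (C.mul_mem hlead (coeff_jqModC_pow_mem C _ _))
    have hBk := ih B hBdeg hBj k
    have hAk : A.coeff k = B.coeff k + (if k = n + 1 then A.coeff (n + 1) else 0) := by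
      rw [hB, Polynomial.coeff_sub, Polynomial.coeff_C_mul, Polynomial.coeff_X_pow]
      split_ifs <;> ring
    rw [hAk]
    refine C.add_mem hBk ?_
    split_ifs
    · exact hlead
    · exact C.zero_mem

theorem coeff_mem_of_jev_coeff_mem' (C : Subring R) (A : R[X])
    (h : ∀ m, (jev R A).coeff m ∈ C) (k : ℕ) : A.coeff k ∈ C :=
  coeff_mem_of_jev_coeff_mem C A.natDegree A le_rfl h k

end Fermat.Agent.S28.H267

end
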