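/-
S28 / helper267 — the ring hom `Ψ : R[X] → R((t))`, `A ↦ ι (A(j))`, `ι = qExpand N`
(`t = q^{1/N}`), and the dictionary orders ↔ degrees.
-/
import Mathlib
import Fermat.Agent.S28.H267.Formal
import Fermat.Agent.S28.H267.CharPoly

set_option autoImplicit false

noncomputable section

open ModularCurve Polynomial

namespace Fermat.Agent.S28.H267

variable (R : Type*) [CommRing R] (N : ℕ) [NeZero N]

/-- `A ↦ ι (A(j))` where `ι = qExpand N`. -/
def psi : R[X] →+* LaurentSeries R := (qExpand R N).comp (jev R)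

variable {R N}

theorem psi_apply (A : R[X]) : psi R N A = qExpand R N (jev R A) := rfl

theorem psi_injective : Function.Injective (psi R N) :=
  (qExpand_injective N).comp jev_injective

theorem psi_coeff_mul (A : R[X]) (m : ℤ) : (psi R N A).coeff ((N : ℤ) * m) = (jev R A).coeff m :=
  qExpand_coeff_mul N _ m

theorem psi_coeff_of_not_dvd (A : R[X]) {k : ℤ} (hk : ¬ (N : ℤ) ∣ k) : (psi R N A).coeff k = 0 :=
  qExpand_coeff_of_not_dvd N _ hk

theorem orderTop_psi {A : R[X]} (hA : A ≠ 0) :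
    (psi R N A).orderTop = ((-((N : ℤ) * (A.natDegree : ℤ)) : ℤ) : WithTop ℤ) := by
  have hN : (0 : ℤ) < N := by exact_mod_cast Nat.pos_of_ne_zero (NeZero.ne N)
  refine orderTop_eq_of_coeff (fun m hm => ?_) ?_
  · by_cases hdvd : (N : ℤ) ∣ m
    · obtain ⟨m', rfl⟩ := hdvd
      rw [psi_coeff_mul]
      refine jev_coeff_of_lt A ?_
      by_contra hcon
      have h1 : -(A.natDegree : ℤ) ≤ m' := not_lt.mp hcon
      have h2 := mul_le_mul_of_nonneg_left h1 hN.le
      linarith
    · exact psi_coeff_of_not_dvd A hdvd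
  · rw [show -((N : ℤ) * (A.natDegree : ℤ)) = (N : ℤ) * (-(A.natDegree : ℤ)) by ring,
      psi_coeff_mul, jev_coeff_neg_natDegree]
    exact Polynomial.leadingCoeff_ne_zero.mpr hA

theorem leadingCoeff_psi {A : R[X]} (hA : A ≠ 0) :
    (psi R N A).leadingCoeff = A.leadingCoeff := by
  rw [leadingCoeff_eq_coeff_of_orderTop (orderTop_psi hA),
    show -((N : ℤ) * (A.natDegree : ℤ)) = (N : ℤ) * (-(A.natDegree : ℤ)) by ring,
    psi_coeff_mul, jev_coeff_neg_natDegree]

theorem psi_ne_zero {A : R[X]} (hA : A ≠ 0) : psi R N A ≠ 0 :=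
  fun h => hA (psi_injective (by rw [h, map_zero]))

/-- Degree and leading coefficient of `A` from the order of `Ψ A`. -/
theorem natDegree_eq_of_orderTop_psi {A : R[X]} {K : ℕ}
    (h : (psi R N A).orderTop = ((-((N : ℤ) * (K : ℤ)) : ℤ) : WithTop ℤ)) :
    A.natDegree = K ∧ A.leadingCoeff = (psi R N A).leadingCoeff := by
  have hN : (0 : ℤ) < N := by exact_mod_cast Nat.pos_of_ne_zero (NeZero.ne N)
  have hA : A ≠ 0 := by
    rintro rfl
    rw [map_zero] at h
    exact ne_zero_of_orderTop_eq h rfl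
  refine ⟨?_, (leadingCoeff_psi hA).symm⟩
  have h1 := orderTop_psi (N := N) hA
  rw [h] at h1
  have h2 : -((N : ℤ) * (K : ℤ)) = -((N : ℤ) * (A.natDegree : ℤ)) := WithTop.coe_injective h1
  have h3 : (N : ℤ) * (K : ℤ) = (N : ℤ) * (A.natDegree : ℤ) := by linarith
  have h4 := mul_left_cancel₀ hN.ne' h3
  exact_mod_cast h4.symm

/-- Degree bound from a lower bound on the order of `Ψ A`. -/
theorem natDegree_lt_of_lt_orderTop_psi {A : R[X]} {K : ℕ} (hK : 0 < K)
    (h : ((-((N : ℤ) * (K : ℤ)) : ℤ) : WithTop ℤ) < (psi R N A).orderTop) :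
    A.natDegree < K := by
  have hN : (0 : ℤ) < N := by exact_mod_cast Nat.pos_of_ne_zero (NeZero.ne N)
  by_cases hA : A = 0
  · rw [hA, Polynomial.natDegree_zero]; exact hK
  rw [orderTop_psi hA] at h
  have h1 : -((N : ℤ) * (K : ℤ)) < -((N : ℤ) * (A.natDegree : ℤ)) := by exact_mod_cast h
  have h2 : (N : ℤ) * (A.natDegree : ℤ) < (N : ℤ) * (K : ℤ) := by linarith
  have h3 := lt_of_mul_lt_mul_left h2 hN.le
  exact_mod_cast h3

/-- Coefficient control through `Ψ`. -/
theorem coeff_mem_of_psi_mem (C : Subring R) {A : R[X]} (h : psi R N A ∈ coeffSubring C)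
    (k : ℕ) : A.coeff k ∈ C := by
  refine coeff_mem_of_jev_coeff_mem' C A (fun m => ?_) k
  rw [← psi_coeff_mul (N := N)]
  exact h _

end Fermat.Agent.S28.H267

end
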