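/-
S28 / helper267 — descent of the characteristic polynomial from `ℂ` to `ℚ` (ρ-trick) and to
`ℤ_(ℓ)`; generation by Lagrange interpolation.  Pure algebra.
-/
import Mathlib
import Fermat.Agent.S28.H267.Psi
import Fermat.Agent.S28.H328.Criterion
import Fermat.Prelude.Def_GaloisRep_Flat

set_option autoImplicit false
set_option linter.unusedSectionVars false

noncomputable section

open ModularCurve Polynomial

namespace Fermat.Agent.S28.H267

/-! ### Minimality -/

section Minimality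

variable {k : Type*} [Field k]

/-- If `Q ∈ k[Y][X]` is monic and irreducible over `k(Y)` with `Q(j, x) = 0`, then no nonzero
polynomial of smaller `X`-degree vanishes at `(j, x)`. -/
theorem eq_zero_of_natDegree_lt {Q D : k[X][X]} (x : LaurentSeries k) (hQm : Q.Monic)
    (hQirr : Irreducible (Q.map (algebraMap k[X] (FractionRing k[X]))))
    (hQ0 : Q.eval₂ (jev k) x = 0) (hD : D.natDegree < Q.natDegree)
    (hD0 : D.eval₂ (jev k) x = 0) : D = 0 := by
  set L := FractionRing k[X] with hL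
  set φ : L →+* LaurentSeries k := IsFractionRing.lift (jev_injective (R := k)) with hφ
  letI : Algebra L (LaurentSeries k) := φ.toAlgebra
  have hcomp : (algebraMap L (LaurentSeries k)).comp (algebraMap k[X] L) = jev k := by
    ext a
    · simp [RingHom.algebraMap_toAlgebra, hφ, IsFractionRing.lift_algebraMap]
    · simp [RingHom.algebraMap_toAlgebra, hφ, IsFractionRing.lift_algebraMap]
  have hQL : Polynomial.aeval x (Q.map (algebraMap k[X] L)) = 0 := by
    rw [Polynomial.aeval_def, Polynomial.eval₂_map, hcomp, hQ0]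
  have hDL : Polynomial.aeval x (D.map (algebraMap k[X] L)) = 0 := by
    rw [Polynomial.aeval_def, Polynomial.eval₂_map, hcomp, hD0]
  have hmin : Q.map (algebraMap k[X] L) = minpoly L x :=
    minpoly.eq_of_irreducible_of_monic hQirr hQL (hQm.map _)
  have hdvd : Q.map (algebraMap k[X] L) ∣ D.map (algebraMap k[X] L) := by
    rw [hmin]
    exact minpoly.dvd L x hDL
  have hzero : D.map (algebraMap k[X] L) = 0 := by
    refine Polynomial.eq_zero_of_dvd_of_natDegree_lt hdvd ?_
    rw [hQm.natDegree_map]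
    exact lt_of_le_of_lt Polynomial.natDegree_map_le hD
  exact Polynomial.map_injective _ (IsFractionRing.injective k[X] L) (by rw [hzero, Polynomial.map_zero])

end Minimality

/-! ### Evaluation at `(j, x)` as a double sum -/

section DoubleSum

variable {R : Type*} [CommRing R]

/-- A uniform strict bound for the degrees of the coefficients of a bivariate polynomial. -/
def innerBound (Q : R[X][X]) : ℕ :=
  (Finset.range (Q.natDegree + 1)).sup (fun k => (Q.coeff k).natDegree) + 1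

theorem natDegree_coeff_lt_innerBound (Q : R[X][X]) (k : ℕ) :
    (Q.coeff k).natDegree < innerBound Q := by
  unfold innerBound
  by_cases hk : k ∈ Finset.range (Q.natDegree + 1)
  · exact Nat.lt_succ_of_le (Finset.le_sup (f := fun k => (Q.coeff k).natDegree) hk)
  · rw [Finset.mem_range, not_lt] at hk
    rw [Polynomial.coeff_eq_zero_of_natDegree_lt (by omega), Polynomial.natDegree_zero]
    exact Nat.succ_pos _

theorem eval₂_jev_coeff (Q : R[X][X]) (x : LaurentSeries R) {n d : ℕ} (hn : Q.natDegree < n)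
    (hd : ∀ k, (Q.coeff k).natDegree < d) (m : ℤ) :
    (Q.eval₂ (jev R) x).coeff m =
      ∑ k ∈ Finset.range n, ∑ i ∈ Finset.range d,
        (Q.coeff k).coeff i * (jqModC R ^ i * x ^ k).coeff m := by
  rw [Polynomial.eval₂_eq_sum_range' (jev R) hn x, HahnSeries.coeff_sum]
  refine Finset.sum_congr rfl fun k _ => ?_
  have h1 : jev R (Q.coeff k) =
      ∑ i ∈ Finset.range d, HahnSeries.C ((Q.coeff k).coeff i) * jqModC R ^ i := by
    rw [jev, Polynomial.coe_eval₂RingHom, Polynomial.eval₂_eq_sum_range' _ (hd k)]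
  rw [h1, Finset.sum_mul, HahnSeries.coeff_sum]
  refine Finset.sum_congr rfl fun i _ => ?_
  rw [mul_assoc, coeff_C_mul]

end DoubleSum

/-! ### The ρ-trick -/

section Rho

variable (ρ : ℂ →ₗ[ℚ] ℚ)

/-- `ρ` applied to the coefficients of a polynomial. -/
def rhoP (A : ℂ[X]) : ℚ[X] :=
  ∑ i ∈ Finset.range (A.natDegree + 1), Polynomial.monomial i (ρ (A.coeff i))

theorem rhoP_coeff (A : ℂ[X]) (i : ℕ) : (rhoP ρ A).coeff i = ρ (A.coeff i) := by
  unfold rhoP
  rw [Polynomial.finsetSum_coeff]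
  simp only [Polynomial.coeff_monomial]
  rw [Finset.sum_ite_eq' (Finset.range (A.natDegree + 1)) i]
  split_ifs with h
  · rfl
  · rw [Finset.mem_range, not_lt] at h
    rw [Polynomial.coeff_eq_zero_of_natDegree_lt (by omega), map_zero]

theorem rhoP_natDegree_le (A : ℂ[X]) : (rhoP ρ A).natDegree ≤ A.natDegree := by
  rw [Polynomial.natDegree_le_iff_coeff_eq_zero]
  intro i hi
  rw [rhoP_coeff, Polynomial.coeff_eq_zero_of_natDegree_lt hi, map_zero]

/-- `ρ` applied to the coefficients of a bivariate polynomial. -/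
def rhoPP (Q : ℂ[X][X]) : ℚ[X][X] :=
  ∑ k ∈ Finset.range (Q.natDegree + 1), Polynomial.monomial k (rhoP ρ (Q.coeff k))

theorem rhoP_zero : rhoP ρ 0 = 0 := by
  ext i
  rw [rhoP_coeff]
  simp

theorem rhoPP_coeff (Q : ℂ[X][X]) (k : ℕ) : (rhoPP ρ Q).coeff k = rhoP ρ (Q.coeff k) := by
  unfold rhoPP
  rw [Polynomial.finsetSum_coeff]
  simp only [Polynomial.coeff_monomial]
  rw [Finset.sum_ite_eq' (Finset.range (Q.natDegree + 1)) k]
  split_ifs with h
  · rfl
  · rw [Finset.mem_range, not_lt] at h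
    rw [Polynomial.coeff_eq_zero_of_natDegree_lt (by omega), rhoP_zero]

theorem rhoPP_natDegree_le (Q : ℂ[X][X]) : (rhoPP ρ Q).natDegree ≤ Q.natDegree := by
  rw [Polynomial.natDegree_le_iff_coeff_eq_zero]
  intro i hi
  rw [rhoPP_coeff, Polynomial.coeff_eq_zero_of_natDegree_lt hi, rhoP_zero]

theorem coeffMap_pow_mul_pow (x : LaurentSeries ℚ) (i k : ℕ) :
    jqModC ℂ ^ i * (coeffMap (algebraMap ℚ ℂ) x) ^ k =
      coeffMap (algebraMap ℚ ℂ) (jqModC ℚ ^ i * x ^ k) := by
  rw [map_mul, map_pow, map_pow, coeffMap_jqModC]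

/-- **ρ-trick, coefficientwise**: `ρ` of the coefficients of `Q(j, x_ℂ)` are the coefficients
of `(ρQ)(j, x)`, for `x ∈ ℚ((q))`. -/
theorem rho_eval₂_coeff (Q : ℂ[X][X]) (x : LaurentSeries ℚ) (m : ℤ) :
    ρ ((Q.eval₂ (jev ℂ) (coeffMap (algebraMap ℚ ℂ) x)).coeff m) =
      ((rhoPP ρ Q).eval₂ (jev ℚ) x).coeff m := by
  have hn : Q.natDegree < Q.natDegree + 1 := Nat.lt_succ_self _
  have hn' : (rhoPP ρ Q).natDegree < Q.natDegree + 1 :=
    Nat.lt_succ_of_le (rhoPP_natDegree_le ρ Q)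
  have hd := natDegree_coeff_lt_innerBound Q
  have hd' : ∀ k, ((rhoPP ρ Q).coeff k).natDegree < innerBound Q := fun k => by
    rw [rhoPP_coeff]
    exact lt_of_le_of_lt (rhoP_natDegree_le ρ _) (hd k)
  rw [eval₂_jev_coeff Q _ hn hd, eval₂_jev_coeff (rhoPP ρ Q) x hn' hd', map_sum]
  refine Finset.sum_congr rfl fun k _ => ?_
  rw [map_sum]
  refine Finset.sum_congr rfl fun i _ => ?_
  rw [coeffMap_pow_mul_pow, coeffMap_coeff, rhoPP_coeff, rhoP_coeff]
  set r : ℚ := (jqModC ℚ ^ i * x ^ k).coeff m with hr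
  have h1 : (Q.coeff k).coeff i * (algebraMap ℚ ℂ) r = r • (Q.coeff k).coeff i := by
    rw [Algebra.smul_def, mul_comm]
  rw [h1, map_smul, smul_eq_mul, mul_comm]

end Rho

/-! ### Descent to `ℚ` -/

section DescentRat

theorem jev_comp_mapRingHom :
    (jev ℂ).comp (Polynomial.mapRingHom (algebraMap ℚ ℂ)) =
      (coeffMap (algebraMap ℚ ℂ)).comp (jev ℚ) := by
  refine Polynomial.ringHom_ext (fun a => ?_) ?_
  · simp only [RingHom.comp_apply, Polynomial.coe_mapRingHom, Polynomial.map_C, jev_C]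
    rw [show (HahnSeries.C a : LaurentSeries ℚ) = HahnSeries.single 0 a from rfl, coeffMap_single]
    rfl
  · simp only [RingHom.comp_apply, Polynomial.coe_mapRingHom, Polynomial.map_X, jev_X]
    rw [coeffMap_jqModC]

theorem eval₂_jev_map (P : ℚ[X][X]) (x : LaurentSeries ℚ) :
    (P.map (Polynomial.mapRingHom (algebraMap ℚ ℂ))).eval₂ (jev ℂ) (coeffMap (algebraMap ℚ ℂ) x)
      = coeffMap (algebraMap ℚ ℂ) (P.eval₂ (jev ℚ) x) := by
  rw [Polynomial.eval₂_map, jev_comp_mapRingHom, Polynomial.hom_eval₂]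

theorem coeffMap_rat_injective :
    Function.Injective (coeffMap (algebraMap ℚ ℂ) : LaurentSeries ℚ → LaurentSeries ℂ) := by
  intro x y h
  ext m
  have := congrArg (fun z => z.coeff m) h
  simp only [coeffMap_coeff] at this
  exact (algebraMap ℚ ℂ).injective this

/-- There is a `ℚ`-linear retraction `ℂ → ℚ`. -/
theorem exists_rho : ∃ ρ : ℂ →ₗ[ℚ] ℚ, ∀ r : ℚ, ρ (algebraMap ℚ ℂ r) = r := by
  obtain ⟨g, hg⟩ := LinearMap.exists_leftInverse_of_injective (Algebra.linearMap ℚ ℂ)
    (LinearMap.ker_eq_bot.mpr (algebraMap ℚ ℂ).injective)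
  refine ⟨g, fun r => ?_⟩
  have := congrArg (fun f => f r) hg
  simpa using this

/-- **Descent to `ℚ`.** A monic `Q ∈ ℂ[Y][X]`, irreducible over `ℂ(Y)`, vanishing at `(j, x)`
for a rational series `x`, has rational coefficients. -/
theorem exists_rat_of_complex (Q : ℂ[X][X]) (x : LaurentSeries ℚ) (hQm : Q.Monic)
    (hQirr : Irreducible (Q.map (algebraMap ℂ[X] (FractionRing ℂ[X]))))
    (hQ0 : Q.eval₂ (jev ℂ) (coeffMap (algebraMap ℚ ℂ) x) = 0) :
    ∃ P : ℚ[X][X], P.map (Polynomial.mapRingHom (algebraMap ℚ ℂ)) = Q ∧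
      P.eval₂ (jev ℚ) x = 0 := by
  obtain ⟨ρ, hρ⟩ := exists_rho
  have hρ1 : ρ 1 = 1 := by simpa using hρ 1
  set P := rhoPP ρ Q with hP
  have hP0 : P.eval₂ (jev ℚ) x = 0 := by
    ext m
    rw [← rho_eval₂_coeff, hQ0, HahnSeries.coeff_zero, HahnSeries.coeff_zero, map_zero]
  refine ⟨P, ?_, hP0⟩
  set PC := P.map (Polynomial.mapRingHom (algebraMap ℚ ℂ)) with hPC
  have hPC0 : PC.eval₂ (jev ℂ) (coeffMap (algebraMap ℚ ℂ) x) = 0 := by
    rw [hPC, eval₂_jev_map, hP0, map_zero]
  by_contra hne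
  have hD : Q - PC ≠ 0 := fun h => hne (sub_eq_zero.mp h).symm
  have hD0 : (Q - PC).eval₂ (jev ℂ) (coeffMap (algebraMap ℚ ℂ) x) = 0 := by
    rw [Polynomial.eval₂_sub, hQ0, hPC0, sub_zero]
  have hdeg : (Q - PC).natDegree < Q.natDegree := by
    have hQne : Q.natDegree ≠ 0 := by
      intro h0
      have : Q = 1 := by
        have := Polynomial.eq_C_of_natDegree_eq_zero h0
        rw [this, ← h0, hQm.coeff_natDegree, Polynomial.C_1]
      rw [this] at hQ0
      simp at hQ0
    rw [Polynomial.natDegree_lt_iff_degree_lt hD, Polynomial.degree_lt_iff_coeff_zero]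
    intro m hm
    rw [Polynomial.coeff_sub, hPC, Polynomial.coeff_map, hP, rhoPP_coeff]
    rcases Nat.lt_or_ge Q.natDegree m with hlt | hge
    · rw [Polynomial.coeff_eq_zero_of_natDegree_lt hlt, rhoP_zero]
      simp
    · have hm' : m = Q.natDegree := le_antisymm hge (by exact_mod_cast hm)
      rw [hm', hQm.coeff_natDegree]
      have : rhoP ρ 1 = 1 := by
        ext i
        rw [rhoP_coeff, Polynomial.coeff_one, Polynomial.coeff_one]
        split_ifs
        · exact hρ1
        · exact map_zero ρ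
      rw [this]
      simp
  exact hD (eq_zero_of_natDegree_lt _ hQm hQirr hQ0 hdeg hD0)

end DescentRat

/-! ### Lifting to `ℤ_(ℓ)` -/

section Lift

variable (ℓ : ℕ)

theorem exists_lift_ratLocalized (P : ℚ[X][X]) (hPm : P.Monic)
    (h : ∀ k i, (P.coeff k).coeff i ∈ GaloisRep.ratLocalizedAt ℓ) :
    ∃ P' : Polynomial (Polynomial ↥(GaloisRep.ratLocalizedAt ℓ)),
      P'.Monic ∧ P'.natDegree = P.natDegree ∧
        P'.map (Polynomial.mapRingHom (GaloisRep.ratLocalizedAt ℓ).subtype) = P := by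
  have hmem : P ∈ Polynomial.lifts (Polynomial.mapRingHom (GaloisRep.ratLocalizedAt ℓ).subtype) := by
    rw [Polynomial.lifts_iff_coeff_lifts]
    intro k
    have hk : P.coeff k ∈ Polynomial.lifts (GaloisRep.ratLocalizedAt ℓ).subtype := by
      rw [Polynomial.lifts_iff_coeff_lifts]
      intro i
      exact ⟨⟨_, h k i⟩, rfl⟩
    rw [Polynomial.mem_lifts] at hk
    obtain ⟨q, hq⟩ := hk
    exact ⟨q, by rw [Polynomial.coe_mapRingHom, hq]⟩
  obtain ⟨q, hq1, hq2, hq3⟩ := Polynomial.lifts_and_natDegree_eq_and_monic hmem hPm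
  exact ⟨q, hq3, hq2, hq1⟩

end Lift

/-! ### Orders of `ι (x_ℂ)` -/

section QExpandOrder

variable {N : ℕ} [NeZero N]

theorem orderTop_qExpand_coeffMap {x : LaurentSeries ℚ} {a : ℤ} (h : x.orderTop = (a : WithTop ℤ)) :
    (qExpand ℂ N (coeffMap (algebraMap ℚ ℂ) x)).orderTop = (((N : ℤ) * a : ℤ) : WithTop ℤ) := by
  have hN : (0 : ℤ) < N := by exact_mod_cast Nat.pos_of_ne_zero (NeZero.ne N)
  refine orderTop_eq_of_coeff (fun m hm => ?_) ?_
  · by_cases hdvd : (N : ℤ) ∣ m
    · obtain ⟨m', rfl⟩ := hdvd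
      rw [qExpand_coeff_mul, coeffMap_coeff]
      have hm' : m' < a := lt_of_mul_lt_mul_left hm hN.le
      rw [coeff_eq_zero_of_lt_of_orderTop_eq h hm', map_zero]
    · exact qExpand_coeff_of_not_dvd N _ hdvd
  · rw [qExpand_coeff_mul, coeffMap_coeff]
    exact (map_ne_zero (algebraMap ℚ ℂ)).mpr (coeff_ne_zero_of_orderTop_eq h)

theorem leadingCoeff_qExpand_coeffMap {x : LaurentSeries ℚ} {a : ℤ}
    (h : x.orderTop = (a : WithTop ℤ)) :
    (qExpand ℂ N (coeffMap (algebraMap ℚ ℂ) x)).leadingCoeff = algebraMap ℚ ℂ x.leadingCoeff := by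
  rw [leadingCoeff_eq_coeff_of_orderTop (orderTop_qExpand_coeffMap (N := N) h),
    qExpand_coeff_mul, coeffMap_coeff, leadingCoeff_eq_coeff_of_orderTop h]

end QExpandOrder

end Fermat.Agent.S28.H267

end
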