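/-
S28 / helper267 — from a lift `Q` of the characteristic polynomial of a single-pole family to
the polynomial `P ∈ ℤ_(ℓ)[Y][X]` of the single-pole route, with all degree/unit conditions.
Pure algebra.
-/
import Mathlib
import Fermat.Agent.S28.H267.Descent

set_option autoImplicit false
set_option linter.unusedSectionVars false

noncomputable section

open ModularCurve Polynomial

namespace Fermat.Agent.S28.H267

section

variable {N : ℕ} [NeZero N] {Θ : Type*} [Fintype Θ] [DecidableEq Θ]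

/-- Product of `C`-units is a `C`-unit. -/
theorem exists_inv_prod (C : Subring ℂ) (s : Finset Θ) (f : Θ → ℂ)
    (h : ∀ θ ∈ s, ∃ c ∈ C, f θ * c = 1) : ∃ c ∈ C, (∏ θ ∈ s, f θ) * c = 1 := by
  induction s using Finset.induction_on with
  | empty => exact ⟨1, C.one_mem, by simp⟩
  | insert a s ha ih =>
    obtain ⟨c1, hc1, h1⟩ := h a (Finset.mem_insert_self a s)
    obtain ⟨c2, hc2, h2⟩ := ih fun θ hθ => h θ (Finset.mem_insert_of_mem hθ)
    refine ⟨c1 * c2, C.mul_mem hc1 hc2, ?_⟩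
    rw [Finset.prod_insert ha]
    calc (f a * ∏ θ ∈ s, f θ) * (c1 * c2) = (f a * c1) * ((∏ θ ∈ s, f θ) * c2) := by ring
      _ = 1 := by rw [h1, h2, mul_one]

/-- The hypotheses on a single-pole family of conjugate expansions. -/
structure SinglePole (N : ℕ) [NeZero N] (C : Subring ℂ) (θ₀ : Θ) (υ : Θ → LaurentSeries ℂ)
    (û : LaurentSeries ℚ) (K : ℕ) : Prop where
  K_pos : 0 < K
  υ_base : υ θ₀ = qExpand ℂ N (coeffMap (algebraMap ℚ ℂ) û)
  û_order : û.orderTop = ((-(K : ℤ) : ℤ) : WithTop ℤ)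
  û_lead : û.leadingCoeff = 1
  pos : ∀ θ, θ ≠ θ₀ → 0 < (υ θ).orderTop
  unit : ∀ θ, θ ≠ θ₀ → ∃ c ∈ C, (υ θ).leadingCoeff * c = 1
  coeff : ∀ θ, υ θ ∈ coeffSubring C

variable {C : Subring ℂ} {θ₀ : Θ} {υ : Θ → LaurentSeries ℂ} {û : LaurentSeries ℚ} {K : ℕ}

namespace SinglePole

variable (H : SinglePole N C θ₀ υ û K)
include H

theorem card_pos : 0 < Fintype.card Θ := Fintype.card_pos_iff.mpr ⟨θ₀⟩

theorem orderTop_base : (υ θ₀).orderTop = ((-((N : ℤ) * (K : ℤ)) : ℤ) : WithTop ℤ) := by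
  rw [H.υ_base, orderTop_qExpand_coeffMap H.û_order]
  congr 1
  ring

theorem leadingCoeff_base : (υ θ₀).leadingCoeff = 1 := by
  rw [H.υ_base, leadingCoeff_qExpand_coeffMap H.û_order, H.û_lead, map_one]

theorem NK_pos : (0 : ℤ) < (N : ℤ) * (K : ℤ) := by
  have hN : (0 : ℤ) < N := by exact_mod_cast Nat.pos_of_ne_zero (NeZero.ne N)
  have hK : (0 : ℤ) < K := by exact_mod_cast H.K_pos
  positivity

theorem ne_of_ne {θ : Θ} (hθ : θ ≠ θ₀) : υ θ₀ - υ θ ≠ 0 := by
  intro h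
  have h1 : υ θ₀ = υ θ := sub_eq_zero.mp h
  have h2 := H.pos θ hθ
  rw [← h1, H.orderTop_base] at h2
  have : (0 : ℤ) < -((N : ℤ) * (K : ℤ)) := by exact_mod_cast h2
  linarith [H.NK_pos]

/-- all leading coefficients of the family are units of `C` -/
theorem unit_all (θ : Θ) : ∃ c ∈ C, (-(υ θ).leadingCoeff) * c = 1 := by
  by_cases hθ : θ = θ₀
  · subst hθ
    exact ⟨-1, C.neg_mem C.one_mem, by rw [H.leadingCoeff_base]; ring⟩
  · obtain ⟨c, hc, h⟩ := H.unit θ hθ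
    exact ⟨-c, C.neg_mem hc, by rw [neg_mul_neg, h]⟩

variable {Q : ℂ[X][X]} (hQ : Q.map (psi ℂ N) = cpoly υ)
include hQ

theorem Q_monic : Q.Monic :=
  Polynomial.monic_of_injective psi_injective (by rw [hQ]; exact cpoly_monic υ)

theorem Q_natDegree : Q.natDegree = Fintype.card Θ := by
  rw [← Polynomial.natDegree_map_eq_of_injective (psi_injective (R := ℂ) (N := N)) Q, hQ,
    cpoly_natDegree]

theorem psi_coeff (k : ℕ) : psi ℂ N (Q.coeff k) = (cpoly υ).coeff k := by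
  rw [← hQ, Polynomial.coeff_map]

theorem Q_top : (Q.coeff (Fintype.card Θ - 1)).natDegree = K ∧
    (Q.coeff (Fintype.card Θ - 1)).leadingCoeff = -1 := by
  obtain ⟨h1, h2, -⟩ := cpoly_orders υ θ₀ _ H.NK_pos H.orderTop_base H.pos
  rw [← H.psi_coeff hQ] at h1 h2
  obtain ⟨h3, h4⟩ := natDegree_eq_of_orderTop_psi h1
  exact ⟨h3, by rw [h4, h2, H.leadingCoeff_base]⟩

theorem Q_lower (k : ℕ) (hk : k + 1 < Fintype.card Θ) : (Q.coeff k).natDegree < K := by
  obtain ⟨-, -, h3⟩ := cpoly_orders υ θ₀ _ H.NK_pos H.orderTop_base H.pos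
  have := h3 k hk
  rw [← H.psi_coeff hQ] at this
  exact natDegree_lt_of_lt_orderTop_psi H.K_pos this

theorem Q_zero : Q.coeff 0 ≠ 0 ∧ ∃ c ∈ C, (Q.coeff 0).leadingCoeff * c = 1 := by
  have h1 := cpoly_coeff_zero_leadingCoeff υ
  rw [← H.psi_coeff hQ] at h1
  obtain ⟨c, hc, h2⟩ := exists_inv_prod C Finset.univ (fun θ => -(υ θ).leadingCoeff)
    fun θ _ => H.unit_all θ
  have hne : Q.coeff 0 ≠ 0 := by
    intro h0
    rw [h0, map_zero, HahnSeries.leadingCoeff_zero] at h1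
    rw [← h1, zero_mul] at h2
    exact zero_ne_one h2
  refine ⟨hne, c, hc, ?_⟩
  rw [← leadingCoeff_psi (N := N) hne, h1, h2]

theorem Q_coeff_mem (k i : ℕ) : (Q.coeff k).coeff i ∈ C := by
  refine coeff_mem_of_psi_mem (N := N) C ?_ i
  rw [H.psi_coeff hQ]
  exact cpoly_coeff_mem (coeffSubring C) υ H.coeff k

theorem Q_irreducible :
    Irreducible (Q.map (algebraMap ℂ[X] (FractionRing ℂ[X]))) := by
  have hn : 0 < Q.natDegree := by rw [H.Q_natDegree hQ]; exact H.card_pos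
  refine Fermat.Agent.S28.H328.irreducible_map_of_coeff_natDegree Q (H.Q_monic hQ) hn K H.K_pos
    ?_ ?_ (H.Q_zero hQ).1 (FractionRing ℂ[X])
  · rw [H.Q_natDegree hQ]; exact (H.Q_top hQ).1
  · intro i hi
    rw [H.Q_natDegree hQ] at hi
    exact H.Q_lower hQ i hi

theorem Q_eval : Q.eval₂ (jev ℂ) (coeffMap (algebraMap ℚ ℂ) û) = 0 := by
  apply qExpand_injective (R := ℂ) N
  rw [Polynomial.hom_eval₂, map_zero, ← H.υ_base]
  change Q.eval₂ (psi ℂ N) (υ θ₀) = 0
  rw [← Polynomial.eval_map, hQ, cpoly_eval]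

end SinglePole

end

end Fermat.Agent.S28.H267

end
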