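/-
S28 / helper267 — packaging: the polynomial `P ∈ ℤ_(ℓ)[Y][X]` of the single-pole route and
generation of rational `Γ`-invariant series by Lagrange interpolation.  Pure algebra.
-/
import Mathlib
import Fermat.Agent.S28.H267.UnitPoly

set_option autoImplicit false
set_option linter.unusedSectionVars false

noncomputable section

open ModularCurve Polynomial

namespace Fermat.Agent.S28.H267

section

variable {N : ℕ} [NeZero N] {Θ : Type*} [Fintype Θ] [DecidableEq Θ]
variable {C : Subring ℂ} {θ₀ : Θ} {υ : Θ → LaurentSeries ℂ} {û : LaurentSeries ℚ} {K : ℕ}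

theorem C_eq_algebraMap_rat (a : ℚ) :
    (HahnSeries.C a : LaurentSeries ℚ) = algebraMap ℚ (LaurentSeries ℚ) a := by
  rw [algebraMap_laurentSeries_eq_single]
  rfl

theorem jev_mem (F : IntermediateField ℚ (LaurentSeries ℚ)) (hj : jqModC ℚ ∈ F) (A : ℚ[X]) :
    jev ℚ A ∈ F := by
  rw [jev_apply]
  refine F.sum_mem fun i _ => F.mul_mem ?_ (F.pow_mem hj i)
  rw [C_eq_algebraMap_rat]
  exact F.algebraMap_mem _

theorem eval₂_jev_mem (F : IntermediateField ℚ (LaurentSeries ℚ)) (hj : jqModC ℚ ∈ F)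
    {x : LaurentSeries ℚ} (hx : x ∈ F) (P : ℚ[X][X]) : P.eval₂ (jev ℚ) x ∈ F := by
  rw [Polynomial.eval₂_eq_sum_range]
  exact F.sum_mem fun i _ => F.mul_mem (jev_mem F hj _) (F.pow_mem hx i)

namespace SinglePole

variable (H : SinglePole N C θ₀ υ û K) {Q : ℂ[X][X]} (hQ : Q.map (psi ℂ N) = cpoly υ)
include H hQ

/-- **The polynomial of the single-pole route**, over `ℤ_(ℓ)`. -/
theorem exists_unitPoly (ℓ : ℕ)
    (hC : ∀ r : ℚ, algebraMap ℚ ℂ r ∈ C → r ∈ GaloisRep.ratLocalizedAt ℓ) :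
    ∃ P : Polynomial (Polynomial ↥(GaloisRep.ratLocalizedAt ℓ)),
      P.Monic ∧ P.natDegree = Fintype.card Θ ∧
      (P.map (Polynomial.mapRingHom (GaloisRep.ratLocalizedAt ℓ).subtype)).map
          (Polynomial.mapRingHom (algebraMap ℚ ℂ)) = Q ∧
      (P.map (Polynomial.mapRingHom (GaloisRep.ratLocalizedAt ℓ).subtype)).eval₂ (jev ℚ) û = 0 ∧
      (P.coeff (Fintype.card Θ - 1)).natDegree = K ∧
      (P.coeff (Fintype.card Θ - 1)).leadingCoeff = -1 ∧
      (∀ k, k + 1 < Fintype.card Θ → (P.coeff k).natDegree < K) ∧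
      IsUnit (P.coeff 0).leadingCoeff := by
  obtain ⟨Pq, hPq, hPq0⟩ := exists_rat_of_complex Q û (H.Q_monic hQ) (H.Q_irreducible hQ)
    (H.Q_eval hQ)
  have hcinj : Function.Injective (algebraMap ℚ ℂ) := (algebraMap ℚ ℂ).injective
  have hPqm : Pq.Monic := by
    refine Polynomial.monic_of_injective (f := Polynomial.mapRingHom (algebraMap ℚ ℂ)) ?_ ?_
    · rw [Polynomial.coe_mapRingHom]; exact Polynomial.map_injective _ hcinj
    · rw [hPq]; exact H.Q_monic hQ
  have hQk : ∀ k, Q.coeff k = (Pq.coeff k).map (algebraMap ℚ ℂ) := fun k => by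
    rw [← hPq, Polynomial.coeff_map, Polynomial.coe_mapRingHom]
  have hcoef : ∀ k i, (Pq.coeff k).coeff i ∈ GaloisRep.ratLocalizedAt ℓ := fun k i => by
    refine hC _ ?_
    have := H.Q_coeff_mem hQ k i
    rwa [hQk, Polynomial.coeff_map] at this
  obtain ⟨P, hPm, hPdeg, hPmap⟩ := exists_lift_ratLocalized ℓ Pq hPqm hcoef
  set s : ↥(GaloisRep.ratLocalizedAt ℓ) →+* ℚ := (GaloisRep.ratLocalizedAt ℓ).subtype with hs
  have hsinj : Function.Injective s := Subtype.val_injective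
  have hPk : ∀ k, Pq.coeff k = (P.coeff k).map s := fun k => by
    rw [← hPmap, Polynomial.coeff_map, Polynomial.coe_mapRingHom]
  have hdegk : ∀ k, (Q.coeff k).natDegree = (P.coeff k).natDegree := fun k => by
    rw [hQk, hPk, Polynomial.natDegree_map_eq_of_injective hcinj,
      Polynomial.natDegree_map_eq_of_injective hsinj]
  have hlck : ∀ k, (Q.coeff k).leadingCoeff = algebraMap ℚ ℂ (s (P.coeff k).leadingCoeff) :=
    fun k => by
      rw [hQk, hPk, Polynomial.leadingCoeff_map_of_injective hcinj,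
        Polynomial.leadingCoeff_map_of_injective hsinj]
  refine ⟨P, hPm, ?_, ?_, ?_, ?_, ?_, ?_, ?_⟩
  · rw [hPdeg, ← H.Q_natDegree hQ, ← hPq,
      Polynomial.natDegree_map_eq_of_injective (f := Polynomial.mapRingHom (algebraMap ℚ ℂ))
        (by rw [Polynomial.coe_mapRingHom]; exact Polynomial.map_injective _ hcinj)]
  · rw [hPmap, hPq]
  · rw [hPmap, hPq0]
  · rw [← hdegk]; exact (H.Q_top hQ).1
  · have h1 := (H.Q_top hQ).2
    rw [hlck] at h1
    have h2 : algebraMap ℚ ℂ (s (P.coeff (Fintype.card Θ - 1)).leadingCoeff) =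
        algebraMap ℚ ℂ (s (-1)) := by
      rw [h1]; simp [hs]
    exact hsinj (hcinj h2)
  · intro k hk
    rw [← hdegk]; exact H.Q_lower hQ k hk
  · obtain ⟨-, c, hc, h1⟩ := H.Q_zero hQ
    rw [hlck] at h1
    set a := (P.coeff 0).leadingCoeff with ha
    have hane : algebraMap ℚ ℂ (s a) ≠ 0 := fun h0 => by
      rw [h0, zero_mul] at h1; exact zero_ne_one h1
    have hsa : s a ≠ 0 := fun h0 => hane (by rw [h0, map_zero])
    have hc' : c = algebraMap ℚ ℂ (s a)⁻¹ := by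
      rw [map_inv₀]
      exact eq_inv_of_mul_eq_one_right h1
    have hmem : (s a)⁻¹ ∈ GaloisRep.ratLocalizedAt ℓ := hC _ (by rw [← hc']; exact hc)
    refine IsUnit.of_mul_eq_one ⟨(s a)⁻¹, hmem⟩ (Subtype.ext ?_)
    change s a * (s a)⁻¹ = 1
    exact mul_inv_cancel₀ hsa

/-- **Generation by Lagrange interpolation.** If the Lagrange polynomial of a second conjugate
family `κ` (with rational base member `ĵ`) lifts along `Ψ`, then `ĵ ∈ ℚ(j, û)`. -/
theorem mem_adjoin (κ : Θ → LaurentSeries ℂ) (ĵ : LaurentSeries ℚ)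
    (hκ : κ θ₀ = qExpand ℂ N (coeffMap (algebraMap ℚ ℂ) ĵ))
    (W : ℂ[X][X]) (hW : W.map (psi ℂ N) = lpoly υ κ) :
    ĵ ∈ IntermediateField.adjoin ℚ {jqModC ℚ, û} := by
  obtain ⟨Pq, hPq, -⟩ := exists_rat_of_complex Q û (H.Q_monic hQ) (H.Q_irreducible hQ)
    (H.Q_eval hQ)
  set F := IntermediateField.adjoin ℚ ({jqModC ℚ, û} : Set (LaurentSeries ℚ)) with hF
  have hj : jqModC ℚ ∈ F := IntermediateField.subset_adjoin ℚ _ (Set.mem_insert _ _)
  have hu : û ∈ F := IntermediateField.subset_adjoin ℚ _ (Set.mem_insert_of_mem _ rfl)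
  set cm := coeffMap (algebraMap ℚ ℂ) with hcm
  set ι := qExpand ℂ N with hι
  -- the derivative value
  set d : LaurentSeries ℚ := (derivative Pq).eval₂ (jev ℚ) û with hd
  have hd1 : ι (cm d) = ∏ θ ∈ Finset.univ.erase θ₀, (υ θ₀ - υ θ) := by
    rw [hd, hcm, ← eval₂_jev_map, ← Polynomial.derivative_map, hPq, hι, Polynomial.hom_eval₂,
      ← H.υ_base]
    change (derivative Q).eval₂ (psi ℂ N) (υ θ₀) = _
    rw [← Polynomial.eval_map, ← Polynomial.derivative_map, hQ, cpoly_derivative_eval]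
  have hδ : (∏ θ ∈ Finset.univ.erase θ₀, (υ θ₀ - υ θ)) ≠ 0 :=
    Finset.prod_ne_zero_iff.mpr fun θ hθ => H.ne_of_ne (Finset.ne_of_mem_erase hθ)
  have hdne : d ≠ 0 := by
    intro h0
    rw [h0, map_zero, map_zero] at hd1
    exact hδ hd1.symm
  -- the Lagrange value
  have hw : W.eval₂ (jev ℂ) (cm û) = cm (ĵ * d) := by
    apply qExpand_injective (R := ℂ) N
    rw [Polynomial.hom_eval₂, ← H.υ_base]
    change W.eval₂ (psi ℂ N) (υ θ₀) = ι (cm (ĵ * d))
    rw [← Polynomial.eval_map, hW, lpoly_eval, hκ, map_mul, map_mul, hd1]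
  obtain ⟨ρ, hρ⟩ := exists_rho
  have hW' : (rhoPP ρ W).eval₂ (jev ℚ) û = ĵ * d := by
    ext m
    rw [← rho_eval₂_coeff, hw, hcm, coeffMap_coeff, hρ]
  have hnum : ĵ * d ∈ F := by
    rw [← hW']
    exact eval₂_jev_mem F hj hu _
  have hden : d ∈ F := eval₂_jev_mem F hj hu _
  have : ĵ = (ĵ * d) * d⁻¹ := by
    rw [mul_assoc, mul_inv_cancel₀ hdne, mul_one]
  rw [this]
  exact F.mul_mem hnum (F.inv_mem hden)

end SinglePole

end

end Fermat.Agent.S28.H267

end
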