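/-
S28 / helper267 — abstract symmetric-function argument.

Given an abstract "expansion calculus" `E` (functions on `ℍ` ↔ Laurent series in `t = q^{1/N}`)
closed under ring operations and satisfying the level-one polynomial principle, every
`SL(2,ℤ)`-symmetric polynomial expression in the conjugates `f ∘ g⁻¹` (`g` running over coset
representatives of a finite-index subgroup `Γ`) of `Γ`-invariant functions has an expansion of
the form `ι (A(j))`, `A ∈ ℂ[X]`.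
-/
import Mathlib
import Fermat.Agent.S28.H267.Formal

set_option autoImplicit false

noncomputable section

open ModularCurve HahnSeries UpperHalfPlane
open scoped MatrixGroups

namespace Fermat.Agent.S28.H267

/-- Abstract expansion calculus of width `N`. `E f φ` should be read as
"`φ` is the expansion of `f` in `t = q^{1/N}` at `i∞`". -/
structure ExpSys (N : ℕ) [NeZero N] : Type where
  /-- the expansion relation -/
  E : (ℍ → ℂ) → LaurentSeries ℂ → Prop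
  const : ∀ c : ℂ, E (fun _ => c) (HahnSeries.C c)
  add : ∀ {f g : ℍ → ℂ} {φ ψ : LaurentSeries ℂ}, E f φ → E g ψ → E (f + g) (φ + ψ)
  mul : ∀ {f g : ℍ → ℂ} {φ ψ : LaurentSeries ℂ}, E f φ → E g ψ → E (f * g) (φ * ψ)
  /-- the polynomial principle -/
  pp : ∀ {f : ℍ → ℂ} {φ : LaurentSeries ℂ}, E f φ →
      (∀ (g : SL(2, ℤ)) (τ : ℍ), f (g • τ) = f τ) →
      ∃ A : Polynomial ℂ, φ = qExpand ℂ N (jev ℂ A)

namespace ExpSys

variable {N : ℕ} [NeZero N] (S : ExpSys N)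

/-- Closure of the expansion relation under multivariate polynomial expressions. -/
theorem eval_mv {σ : Type*} (F : σ → ℍ → ℂ) (Φ : σ → LaurentSeries ℂ)
    (h : ∀ i, S.E (F i) (Φ i)) (p : MvPolynomial σ ℂ) :
    S.E (fun τ => MvPolynomial.eval (fun i => F i τ) p)
      (MvPolynomial.eval₂ (HahnSeries.C : ℂ →+* LaurentSeries ℂ) Φ p) := by
  induction p using MvPolynomial.induction_on with
  | C a =>
    simp only [MvPolynomial.eval_C, MvPolynomial.eval₂_C]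
    exact S.const a
  | add p q hp hq =>
    simp only [map_add, MvPolynomial.eval₂_add]
    exact S.add hp hq
  | mul_X p i hp =>
    simp only [map_mul, MvPolynomial.eval_X, MvPolynomial.eval₂_mul, MvPolynomial.eval₂_X]
    exact S.mul hp (h i)

end ExpSys

/-! ### Coset representatives -/

section Cosets

variable (Γ : Subgroup SL(2, ℤ))

open Classical in
/-- Coset representatives for `SL(2,ℤ) ⧸ Γ`, normalised so that the trivial coset is
represented by `1`. -/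
def rep (θ : SL(2, ℤ) ⧸ Γ) : SL(2, ℤ) :=
  if θ = ((1 : SL(2, ℤ)) : SL(2, ℤ) ⧸ Γ) then 1 else Quotient.out θ

theorem mk_rep (θ : SL(2, ℤ) ⧸ Γ) : ((rep Γ θ : SL(2, ℤ)) : SL(2, ℤ) ⧸ Γ) = θ := by
  unfold rep
  split_ifs with h
  · exact h.symm
  · exact QuotientGroup.out_eq' θ

theorem rep_one : rep Γ ((1 : SL(2, ℤ)) : SL(2, ℤ) ⧸ Γ) = 1 := by
  unfold rep
  rw [if_pos rfl]

theorem rep_mem_iff (θ : SL(2, ℤ) ⧸ Γ) :
    rep Γ θ ∈ Γ ↔ θ = ((1 : SL(2, ℤ)) : SL(2, ℤ) ⧸ Γ) := by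
  constructor
  · intro h
    rw [← mk_rep Γ θ]
    rw [QuotientGroup.eq]
    simpa using Γ.inv_mem h
  · intro h
    rw [h, rep_one]
    exact Γ.one_mem

theorem rep_inv_mem_iff (θ : SL(2, ℤ) ⧸ Γ) :
    (rep Γ θ)⁻¹ ∈ Γ ↔ θ = ((1 : SL(2, ℤ)) : SL(2, ℤ) ⧸ Γ) := by
  rw [Γ.inv_mem_iff, rep_mem_iff]

variable {Γ}

/-- Transformation of conjugates: for a `Γ`-invariant function `f`,
`f (rep θ)⁻¹ (h τ) = f (rep (h⁻¹ θ))⁻¹ τ`. -/
theorem conj_smul {f : ℍ → ℂ} (hf : ∀ γ ∈ Γ, ∀ τ : ℍ, f (γ • τ) = f τ)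
    (θ : SL(2, ℤ) ⧸ Γ) (h : SL(2, ℤ)) (τ : ℍ) :
    f ((rep Γ θ)⁻¹ • h • τ) = f ((rep Γ (h⁻¹ • θ))⁻¹ • τ) := by
  set g := rep Γ θ with hg
  set g' := rep Γ (h⁻¹ • θ) with hg'
  have h1 : ((g' : SL(2, ℤ)) : SL(2, ℤ) ⧸ Γ) = ((h⁻¹ * g : SL(2, ℤ)) : SL(2, ℤ) ⧸ Γ) := by
    rw [hg', mk_rep]
    conv_lhs => rw [← mk_rep Γ θ]
    rfl
  have h2 : g'⁻¹ * (h⁻¹ * g) ∈ Γ := QuotientGroup.eq.mp h1
  have h3 : g⁻¹ * h * g' ∈ Γ := by
    have := Γ.inv_mem h2
    simpa [mul_assoc] using this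
  have h4 : g⁻¹ • h • τ = (g⁻¹ * h * g') • g'⁻¹ • τ := by
    rw [← mul_smul, ← mul_smul]
    congr 1
    group
  rw [h4, hf _ h3]

end Cosets

/-! ### Symmetric expressions -/

section Symmetric

variable {N : ℕ} [NeZero N] (S : ExpSys N) (Γ : Subgroup SL(2, ℤ))

/-- Data of a family (indexed by `κ`) of `Γ`-invariant functions on `ℍ` all of whose
`SL(2,ℤ)`-translates have expansions. -/
structure Family (κ : Type*) : Type _ where
  /-- the functions -/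
  F : κ → ℍ → ℂ
  inv : ∀ (i : κ) (γ : SL(2, ℤ)), γ ∈ Γ → ∀ τ : ℍ, F i (γ • τ) = F i τ
  /-- expansions of the translates `τ ↦ F i (g • τ)` -/
  Φ : κ → SL(2, ℤ) → LaurentSeries ℂ
  exp : ∀ (i : κ) (g : SL(2, ℤ)), S.E (fun τ => F i (g • τ)) (Φ i g)

variable {S Γ}
variable {κ : Type*} (D : Family S Γ κ)

/-- The conjugate expansions, indexed by `κ × (SL(2,ℤ) ⧸ Γ)`. -/
def Family.conjΦ : κ × (SL(2, ℤ) ⧸ Γ) → LaurentSeries ℂ :=
  fun x => D.Φ x.1 (rep Γ x.2)⁻¹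

/-- The conjugate functions, indexed by `κ × (SL(2,ℤ) ⧸ Γ)`. -/
def Family.conjF : κ × (SL(2, ℤ) ⧸ Γ) → ℍ → ℂ :=
  fun x τ => D.F x.1 ((rep Γ x.2)⁻¹ • τ)

theorem Family.conjF_smul (x : κ × (SL(2, ℤ) ⧸ Γ)) (h : SL(2, ℤ)) (τ : ℍ) :
    D.conjF x (h • τ) = D.conjF (x.1, h⁻¹ • x.2) τ :=
  conj_smul (D.inv x.1) x.2 h τ

/-- **Symmetric expressions are polynomials in `j`.** If `p` is invariant under the diagonal
action of `SL(2,ℤ)` on the coset index, then `p(conjugate expansions) = ι (A(j))`. -/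
theorem Family.exists_poly_of_symm (p : MvPolynomial (κ × (SL(2, ℤ) ⧸ Γ)) ℂ)
    (hp : ∀ h : SL(2, ℤ),
      MvPolynomial.rename (fun x : κ × (SL(2, ℤ) ⧸ Γ) => (x.1, h • x.2)) p = p) :
    ∃ A : Polynomial ℂ,
      MvPolynomial.eval₂ (HahnSeries.C : ℂ →+* LaurentSeries ℂ) D.conjΦ p
        = qExpand ℂ N (jev ℂ A) := by
  have hE := S.eval_mv D.conjF D.conjΦ (fun x => D.exp x.1 (rep Γ x.2)⁻¹) p
  refine S.pp hE ?_
  intro h τ
  have h1 : (fun i => D.conjF i (h • τ)) =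
      (fun i => D.conjF i τ) ∘ (fun x : κ × (SL(2, ℤ) ⧸ Γ) => (x.1, h⁻¹ • x.2)) := by
    funext x
    exact D.conjF_smul x h τ
  rw [h1, ← MvPolynomial.eval_rename, hp h⁻¹]

end Symmetric

end Fermat.Agent.S28.H267

end
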