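/-
S28 / helper267 — the bridge of the single-pole route:

  expansion calculus with polynomial principle (`ExpSys`)
  + single-pole unit `u` with expansions of all its `SL(2,ℤ)`-translates (`UnitInput`)
  ⟹ the polynomial `P ∈ ℤ_(ℓ)[Y][X]` with `P(j, û) = 0` satisfying the degree conditions of
     helper328's irreducibility criterion (over `ℚ` and modulo `ℓ`), and `ĵ ∈ ℚ(j, û)` for every
     rational series `ĵ` that is the expansion of a `Γ`-invariant function all of whose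
     translates have expansions (`GenInput`).
-/
import Mathlib
import Fermat.Agent.S28.H267.Sym
import Fermat.Agent.S28.H267.Final

set_option autoImplicit false
set_option linter.unusedSectionVars false

noncomputable section

open ModularCurve Polynomial UpperHalfPlane
open scoped MatrixGroups

namespace Fermat.Agent.S28.H267

section Lifts

variable {N : ℕ} [NeZero N] {S : ExpSys N} {Γ : Subgroup SL(2, ℤ)}
variable [Fintype (SL(2, ℤ) ⧸ Γ)] [DecidableEq (SL(2, ℤ) ⧸ Γ)]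
variable {κ : Type*} (D : Family S Γ κ)

theorem Family.eval₂_coeff_cpoly (i₀ : κ) (k : ℕ) :
    MvPolynomial.eval₂ (HahnSeries.C : ℂ →+* LaurentSeries ℂ) D.conjΦ
        ((cpoly fun θ : SL(2, ℤ) ⧸ Γ =>
          (MvPolynomial.X (i₀, θ) : MvPolynomial (κ × (SL(2, ℤ) ⧸ Γ)) ℂ)).coeff k)
      = (cpoly fun θ => D.conjΦ (i₀, θ)).coeff k := by
  rw [← MvPolynomial.coe_eval₂Hom, ← Polynomial.coeff_map, cpoly_map]
  simp only [MvPolynomial.coe_eval₂Hom, MvPolynomial.eval₂_X]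

theorem Family.eval₂_coeff_lpoly (i₀ i₁ : κ) (k : ℕ) :
    MvPolynomial.eval₂ (HahnSeries.C : ℂ →+* LaurentSeries ℂ) D.conjΦ
        ((lpoly (fun θ : SL(2, ℤ) ⧸ Γ =>
            (MvPolynomial.X (i₀, θ) : MvPolynomial (κ × (SL(2, ℤ) ⧸ Γ)) ℂ))
          (fun θ => MvPolynomial.X (i₁, θ))).coeff k)
      = (lpoly (fun θ => D.conjΦ (i₀, θ)) (fun θ => D.conjΦ (i₁, θ))).coeff k := by
  rw [← MvPolynomial.coe_eval₂Hom, ← Polynomial.coeff_map, lpoly_map]
  simp only [MvPolynomial.coe_eval₂Hom, MvPolynomial.eval₂_X]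

omit [NeZero N] in
theorem rename_coeff_cpoly (i₀ : κ) (k : ℕ) (h : SL(2, ℤ)) :
    MvPolynomial.rename (fun x : κ × (SL(2, ℤ) ⧸ Γ) => (x.1, h • x.2))
        ((cpoly fun θ : SL(2, ℤ) ⧸ Γ =>
          (MvPolynomial.X (i₀, θ) : MvPolynomial (κ × (SL(2, ℤ) ⧸ Γ)) ℂ)).coeff k)
      = (cpoly fun θ : SL(2, ℤ) ⧸ Γ =>
          (MvPolynomial.X (i₀, θ) : MvPolynomial (κ × (SL(2, ℤ) ⧸ Γ)) ℂ)).coeff k := by
  have h1 := Polynomial.coeff_map
    (p := cpoly fun θ : SL(2, ℤ) ⧸ Γ =>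
      (MvPolynomial.X (i₀, θ) : MvPolynomial (κ × (SL(2, ℤ) ⧸ Γ)) ℂ))
    ((MvPolynomial.rename (R := ℂ)
      (fun x : κ × (SL(2, ℤ) ⧸ Γ) => (x.1, h • x.2))).toRingHom) k
  rw [cpoly_map] at h1
  simp only [AlgHom.toRingHom_eq_coe, RingHom.coe_coe, MvPolynomial.rename_X] at h1
  rw [← h1]
  exact congrArg (fun p => Polynomial.coeff p k)
    (cpoly_comp_equiv (MulAction.toPerm h)
      (fun θ : SL(2, ℤ) ⧸ Γ =>
        (MvPolynomial.X (i₀, θ) : MvPolynomial (κ × (SL(2, ℤ) ⧸ Γ)) ℂ)))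

omit [NeZero N] in
theorem rename_coeff_lpoly (i₀ i₁ : κ) (k : ℕ) (h : SL(2, ℤ)) :
    MvPolynomial.rename (fun x : κ × (SL(2, ℤ) ⧸ Γ) => (x.1, h • x.2))
        ((lpoly (fun θ : SL(2, ℤ) ⧸ Γ =>
            (MvPolynomial.X (i₀, θ) : MvPolynomial (κ × (SL(2, ℤ) ⧸ Γ)) ℂ))
          (fun θ => MvPolynomial.X (i₁, θ))).coeff k)
      = (lpoly (fun θ : SL(2, ℤ) ⧸ Γ =>
            (MvPolynomial.X (i₀, θ) : MvPolynomial (κ × (SL(2, ℤ) ⧸ Γ)) ℂ))
          (fun θ => MvPolynomial.X (i₁, θ))).coeff k := by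
  have h1 := Polynomial.coeff_map
    (p := lpoly (fun θ : SL(2, ℤ) ⧸ Γ =>
            (MvPolynomial.X (i₀, θ) : MvPolynomial (κ × (SL(2, ℤ) ⧸ Γ)) ℂ))
          (fun θ => MvPolynomial.X (i₁, θ)))
    ((MvPolynomial.rename (R := ℂ)
      (fun x : κ × (SL(2, ℤ) ⧸ Γ) => (x.1, h • x.2))).toRingHom) k
  rw [lpoly_map] at h1
  simp only [AlgHom.toRingHom_eq_coe, RingHom.coe_coe, MvPolynomial.rename_X] at h1
  rw [← h1]
  exact congrArg (fun p => Polynomial.coeff p k)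
    (lpoly_comp_equiv (MulAction.toPerm h)
      (fun θ : SL(2, ℤ) ⧸ Γ =>
        (MvPolynomial.X (i₀, θ) : MvPolynomial (κ × (SL(2, ℤ) ⧸ Γ)) ℂ))
      (fun θ => MvPolynomial.X (i₁, θ)))

/-- The characteristic polynomial of the conjugates lifts along `Ψ = ι ∘ (A ↦ A(j))`. -/
theorem Family.exists_cpoly_lift (i₀ : κ) :
    ∃ Q : ℂ[X][X], Q.map (psi ℂ N) = cpoly fun θ => D.conjΦ (i₀, θ) := by
  rw [← Polynomial.mem_lifts, Polynomial.lifts_iff_coeff_lifts]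
  intro k
  obtain ⟨A, hA⟩ := D.exists_poly_of_symm _ (rename_coeff_cpoly i₀ k)
  rw [D.eval₂_coeff_cpoly] at hA
  exact ⟨A, hA.symm⟩

/-- The Lagrange polynomial of two families of conjugates lifts along `Ψ`. -/
theorem Family.exists_lpoly_lift (i₀ i₁ : κ) :
    ∃ W : ℂ[X][X], W.map (psi ℂ N) =
      lpoly (fun θ => D.conjΦ (i₀, θ)) (fun θ => D.conjΦ (i₁, θ)) := by
  rw [← Polynomial.mem_lifts, Polynomial.lifts_iff_coeff_lifts]
  intro k
  obtain ⟨A, hA⟩ := D.exists_poly_of_symm _ (rename_coeff_lpoly i₀ i₁ k)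
  rw [D.eval₂_coeff_lpoly] at hA
  exact ⟨A, hA.symm⟩

end Lifts

/-! ### The main theorem -/

section Main

variable {N : ℕ} [NeZero N]

/-- Input for the single-pole route: a `Γ`-invariant function `u` all of whose translates have
expansions with coefficients in `C`; `u` itself has a rational expansion `û` with a pole of
order `K` and leading coefficient `1`; every translate by `g ∉ Γ` has positive order and a
leading coefficient which is a unit of `C`. -/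
structure UnitInput (S : ExpSys N) (Γ : Subgroup SL(2, ℤ)) (C : Subring ℂ) : Type where
  u : ℍ → ℂ
  u_inv : ∀ γ : SL(2, ℤ), γ ∈ Γ → ∀ τ : ℍ, u (γ • τ) = u τ
  υ : SL(2, ℤ) → LaurentSeries ℂ
  υ_exp : ∀ g : SL(2, ℤ), S.E (fun τ => u (g • τ)) (υ g)
  υ_coeff : ∀ g : SL(2, ℤ), υ g ∈ coeffSubring C
  υ_pos : ∀ g : SL(2, ℤ), g ∉ Γ → 0 < (υ g).orderTop
  υ_unit : ∀ g : SL(2, ℤ), g ∉ Γ → ∃ c ∈ C, (υ g).leadingCoeff * c = 1
  û : LaurentSeries ℚ
  K : ℕ
  K_pos : 0 < K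
  υ_one : υ 1 = qExpand ℂ N (coeffMap (algebraMap ℚ ℂ) û)
  û_order : û.orderTop = ((-(K : ℤ) : ℤ) : WithTop ℤ)
  û_lead : û.leadingCoeff = 1

/-- A rational series `ĵ` which is the expansion of a `Γ`-invariant function all of whose
translates have expansions. -/
structure GenInput (S : ExpSys N) (Γ : Subgroup SL(2, ℤ)) : Type where
  J : ℍ → ℂ
  J_inv : ∀ γ : SL(2, ℤ), γ ∈ Γ → ∀ τ : ℍ, J (γ • τ) = J τ
  κ : SL(2, ℤ) → LaurentSeries ℂ
  κ_exp : ∀ g : SL(2, ℤ), S.E (fun τ => J (g • τ)) (κ g)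
  ĵ : LaurentSeries ℚ
  κ_one : κ 1 = qExpand ℂ N (coeffMap (algebraMap ℚ ℂ) ĵ)

variable {S : ExpSys N} {Γ : Subgroup SL(2, ℤ)} {C : Subring ℂ}

/-- The family `(u, J)` indexed by `Bool`. -/
def pairFamily (U : UnitInput S Γ C) (G : GenInput S Γ) : Family S Γ Bool where
  F b := if b then G.J else U.u
  inv b γ hγ τ := by
    cases b
    · simpa using U.u_inv γ hγ τ
    · simpa using G.J_inv γ hγ τ
  Φ b := if b then G.κ else U.υ
  exp b g := by
    cases b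
    · simpa using U.υ_exp g
    · simpa using G.κ_exp g

/-- The family consisting of `u` alone. -/
def unitFamily (U : UnitInput S Γ C) : Family S Γ Unit where
  F _ := U.u
  inv _ γ hγ τ := U.u_inv γ hγ τ
  Φ _ := U.υ
  exp _ g := U.υ_exp g

variable [Fintype (SL(2, ℤ) ⧸ Γ)] [DecidableEq (SL(2, ℤ) ⧸ Γ)]

/-- The conjugate expansions of `u`, indexed by the cosets. -/
def UnitInput.conj (U : UnitInput S Γ C) (θ : SL(2, ℤ) ⧸ Γ) : LaurentSeries ℂ :=
  U.υ (rep Γ θ)⁻¹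

theorem UnitInput.singlePole (U : UnitInput S Γ C) :
    SinglePole N C ((1 : SL(2, ℤ)) : SL(2, ℤ) ⧸ Γ) U.conj U.û U.K where
  K_pos := U.K_pos
  υ_base := by rw [UnitInput.conj, rep_one, inv_one, U.υ_one]
  û_order := U.û_order
  û_lead := U.û_lead
  pos θ hθ := U.υ_pos _ fun h => hθ ((rep_inv_mem_iff Γ θ).mp h)
  unit θ hθ := U.υ_unit _ fun h => hθ ((rep_inv_mem_iff Γ θ).mp h)
  coeff θ := U.υ_coeff _

theorem UnitInput.exists_lift (U : UnitInput S Γ C) :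
    ∃ Q : ℂ[X][X], Q.map (psi ℂ N) = cpoly U.conj :=
  (unitFamily U).exists_cpoly_lift ()

/-- **Main theorem of the bridge.** -/
theorem UnitInput.exists_unitData (U : UnitInput S Γ C) (ℓ : ℕ)
    (hC : ∀ r : ℚ, algebraMap ℚ ℂ r ∈ C → r ∈ GaloisRep.ratLocalizedAt ℓ) :
    ∃ P : Polynomial (Polynomial ↥(GaloisRep.ratLocalizedAt ℓ)),
      P.Monic ∧ P.natDegree = Fintype.card (SL(2, ℤ) ⧸ Γ) ∧ 0 < P.natDegree ∧
      (P.map (Polynomial.mapRingHom (GaloisRep.ratLocalizedAt ℓ).subtype)).eval₂ (jev ℚ) U.û = 0 ∧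
      (P.coeff (P.natDegree - 1)).natDegree = U.K ∧
      (P.coeff (P.natDegree - 1)).leadingCoeff = -1 ∧
      (∀ k, k + 1 < P.natDegree → (P.coeff k).natDegree < U.K) ∧
      IsUnit (P.coeff 0).leadingCoeff ∧
      ∀ G : GenInput S Γ, G.ĵ ∈ IntermediateField.adjoin ℚ {jqModC ℚ, U.û} := by
  obtain ⟨Q, hQ⟩ := U.exists_lift
  have H := U.singlePole
  obtain ⟨P, h1, h2, -, h4, h5, h6, h7, h8⟩ := H.exists_unitPoly hQ ℓ hC
  refine ⟨P, h1, h2, by rw [h2]; exact H.card_pos, h4, by rw [h2]; exact h5,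
    by rw [h2]; exact h6, by rw [h2]; exact h7, h8, fun G => ?_⟩
  obtain ⟨W, hW⟩ := (pairFamily U G).exists_lpoly_lift false true
  refine H.mem_adjoin hQ (fun θ => G.κ (rep Γ θ)⁻¹) G.ĵ ?_ W ?_
  · rw [rep_one, inv_one, G.κ_one]
  · rw [hW]
    rfl

end Main

end Fermat.Agent.S28.H267

end
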