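/-
S28 / helper267 — instantiation of the bridge of the single-pole route.

* `expSys N : ExpSys N` — the expansion calculus `InfExp N` (helper384) with the polynomial
  principle of helper565;
* `unitInput N` — the single-pole unit of helper568 as a `UnitInput`;
* `genInput N d` — the function `τ ↦ j(dτ)`, `d ∣ N`, as a `GenInput`;
* `exists_unitPoly_Gamma0` — the resulting polynomial `P ∈ ℤ_(ℓ)[Y][X]` for `û`.
-/
import Fermat.Agent.S28.H267.Bridge
import Fermat.Agent.S28.H568.Identity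
import Fermat.Agent.S28.H565.PolyPrinciple
import Fermat.Agent.S28.H685.QLaurent

set_option autoImplicit false

noncomputable section

open ModularCurve HahnSeries UpperHalfPlane
open scoped MatrixGroups

namespace Fermat.Agent.S28.H267

open Fermat.Agent.S24

/-! ### The expansion calculus -/

theorem aeval_qExpand_jq (N : ℕ) [NeZero N] (Q : Polynomial ℂ) :
    Polynomial.aeval (qExpand ℂ N (jqModC ℂ)) Q = qExpand ℂ N (jev ℂ Q) := by
  rw [jev, Polynomial.aeval_def, Polynomial.coe_eval₂RingHom, Polynomial.hom_eval₂]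
  congr 1
  ext c : 1
  rw [RingHom.comp_apply, algebraMap_laurentSeries_eq_single, qExpand_C]
  rfl

/-- The expansion calculus of width `N`: convergent Laurent expansions in `exp(2πiτ/N)`. -/
def expSys (N : ℕ) [NeZero N] : ExpSys N where
  E := InfExp N
  const := InfExp.const
  add := fun hf hg => hf.add hg
  mul := fun hf hg => hf.mul hg
  pp := by
    intro f φ hf hinv
    have hN : (0 : ℝ) < N := by exact_mod_cast Nat.pos_of_ne_zero (NeZero.ne N)
    have hmd := H685.HasQLaurent.mdifferentiable hN (f := f) (φ := φ) hf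
    obtain ⟨Q, -, hQ⟩ := H565.exists_polynomial_of_invariant (N := N) hmd hinv hf
    exact ⟨Q, by rw [hQ, aeval_qExpand_jq]⟩

@[simp] theorem expSys_E (N : ℕ) [NeZero N] (f : ℍ → ℂ) (φ : LaurentSeries ℂ) :
    (expSys N).E f φ ↔ InfExp N f φ := Iff.rfl

/-! ### The single-pole unit -/

theorem mem_coeffSubring_of_H568 {C : Subring ℂ} {φ : LaurentSeries ℂ}
    (h : φ ∈ H568.coeffSubring C) : φ ∈ coeffSubring C :=
  mem_coeffSubring.mpr (H568.mem_coeffSubring_iff.mp h)

/-- The chosen expansion of `u ∘ g`. -/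
def unitConj (N : ℕ) [NeZero N] (g : SL(2, ℤ)) : LaurentSeries ℂ :=
  Classical.choose (H568.exists_conj_uN N g)

theorem unitConj_spec (N : ℕ) [NeZero N] (g : SL(2, ℤ)) :
    unitConj N g ≠ 0 ∧ InfExp N (fun τ => H568.uN N (g • τ)) (unitConj N g) ∧
      unitConj N g ∈ H568.coeffSubring (H568.coeffRing N) ∧
      (unitConj N g)⁻¹ ∈ H568.coeffSubring (H568.coeffRing N) ∧
      (unitConj N g).order =
        ∑ d ∈ N.divisors, H207.unitExp N d * H207.cuspOrd N d (g 1 0).natAbs :=
  Classical.choose_spec (H568.exists_conj_uN N g)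

theorem unitConj_order_pos (N : ℕ) [NeZero N] (g : SL(2, ℤ))
    (hg : g ∉ CongruenceSubgroup.Gamma0 N) : 0 < (unitConj N g).order := by
  obtain ⟨φ, -, h1, -, -, h4⟩ := H568.exists_conj_uN_of_not_mem N g hg
  rw [(unitConj_spec N g).2.1.unique h1]
  exact h4

theorem unitConj_one (N : ℕ) [NeZero N] : unitConj N 1 = H568.toZ N (H568.uHat N) :=
  (unitConj_spec N 1).2.1.unique' (H568.infExp_uN N) fun τ => by rw [one_smul]

/-- The rational form of the formal unit. -/
def uHatQ (N : ℕ) : LaurentSeries ℚ := coeffMap (Int.castRingHom ℚ) (H568.uHat N)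

theorem coeffMap_uHatQ (N : ℕ) [NeZero N] :
    qExpand ℂ N (coeffMap (algebraMap ℚ ℂ) (uHatQ N)) = H568.toZ N (H568.uHat N) := by
  rw [H568.toZ_apply]
  congr 1

theorem uHatQ_order (N : ℕ) : (uHatQ N).order = (H568.uHat N).order :=
  inf_coeffMap_order (RingHom.injective_int (Int.castRingHom ℚ)) _

theorem uHatQ_ne_zero (N : ℕ) : uHatQ N ≠ 0 := by
  intro h
  exact H568.uHat_ne_zero N
    (inf_coeffMap_injective (RingHom.injective_int (Int.castRingHom ℚ))
      (h.trans (map_zero _).symm))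

theorem uHatQ_leadingCoeff (N : ℕ) [NeZero N] : (uHatQ N).leadingCoeff = 1 := by
  rw [uHatQ, inf_coeffMap_leadingCoeff (RingHom.injective_int (Int.castRingHom ℚ)),
    H568.uHat_leadingCoeff]
  exact map_one _

/-- The single-pole unit as input of the bridge. -/
def unitInput (N : ℕ) [NeZero N] (hN : 1 < N) :
    UnitInput (expSys N) (CongruenceSubgroup.Gamma0 N) (H568.coeffRing N) where
  u := H568.uN N
  u_inv γ hγ τ := H568.uN_smul N γ hγ τ
  υ := unitConj N
  υ_exp g := (unitConj_spec N g).2.1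
  υ_coeff g := mem_coeffSubring_of_H568 (unitConj_spec N g).2.2.1
  υ_pos g hg := by
    rw [← HahnSeries.order_eq_orderTop_of_ne_zero (unitConj_spec N g).1]
    exact_mod_cast unitConj_order_pos N g hg
  υ_unit g _ := by
    refine ⟨(unitConj N g)⁻¹.leadingCoeff,
      H568.leadingCoeff_mem_of_mem_coeffSubring (unitConj_spec N g).2.2.2.1, ?_⟩
    rw [← HahnSeries.leadingCoeff_mul, mul_inv_cancel₀ (unitConj_spec N g).1,
      HahnSeries.leadingCoeff_one]
  û := uHatQ N
  K := (-(H568.uHat N).order).toNat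
  K_pos := by
    have := H568.uHat_order_neg N hN
    omega
  υ_one := by rw [unitConj_one, coeffMap_uHatQ]
  û_order := by
    rw [← HahnSeries.order_eq_orderTop_of_ne_zero (uHatQ_ne_zero N), uHatQ_order]
    have := H568.uHat_order_neg N hN
    congr 1
    omega
  û_lead := uHatQ_leadingCoeff N

/-! ### The generators `j(dτ)` -/

theorem infExp_jFun565 : InfExp 1 H565.jFun infJq := by
  have e : jqModC ℂ = infJq := by
    rw [← ModularCurve.map_jqModC (algebraMap ℚ ℂ), ModularCurve.jqModC_rat]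
    rfl
  intro τ
  have h := H565.hasTExp_jFun τ
  rw [e] at h
  simpa [infZ] using h

/-- The function `τ ↦ j(dτ)`. -/
def jd (d : ℕ) (τ : ℍ) : ℂ := H565.jFun (infAff d 0 1 τ)

theorem jd_smul_of_dvd {d : ℕ} (hd : 0 < d) (γ : SL(2, ℤ)) (hγ : (d : ℤ) ∣ γ 1 0) (τ : ℍ) :
    jd d (γ • τ) = jd d τ := by
  obtain ⟨γ', a, d', b, ha, hd', had, h00, h01, h10, h11⟩ := inf_exists_hnf d hd γ
  have hagcd := H568.hnf_a_eq_gcd γ γ' had h00 h10
  have hdvd : d ∣ (γ 1 0).natAbs := Int.natCast_dvd.mp hγ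
  rw [Nat.gcd_eq_left hdvd] at hagcd
  subst hagcd
  have hd'1 : d' = 1 := by
    have : a * d' = a * 1 := by rw [had, mul_one]
    exact Nat.eq_of_mul_eq_mul_left ha this
  subst hd'1
  rw [jd, jd, inf_aff_smul_eq hd ha one_pos γ γ' h00 h01 h10 h11 τ, H565.jFun_smul]
  have : NeZero a := ⟨ha.ne'⟩
  have h1 := inf_J_infAff_exp infExp_jFun565 (N := 1) (e := a) b ha one_pos one_pos (by ring)
  have h2 := inf_J_infAff_exp infExp_jFun565 (N := 1) (e := a) 0 ha one_pos one_pos (by ring)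
  have hroot : infRoot b 1 = infRoot 0 1 := (infRoot_eq_iff one_pos).mpr (by simp)
  rw [infGenExp, hroot, ← infGenExp] at h1
  exact congrFun (h1.fun_unique h2) τ

theorem jd_smul {N d : ℕ} [NeZero N] (hdN : d ∣ N) (γ : SL(2, ℤ))
    (hγ : γ ∈ CongruenceSubgroup.Gamma0 N) (τ : ℍ) : jd d (γ • τ) = jd d τ := by
  rw [CongruenceSubgroup.Gamma0_mem, ZMod.intCast_zmod_eq_zero_iff_dvd] at hγ
  have hd : 0 < d := Nat.pos_of_dvd_of_pos hdN (Nat.pos_of_ne_zero (NeZero.ne N))
  exact jd_smul_of_dvd hd γ (dvd_trans (by exact_mod_cast hdN) hγ) τ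

theorem exists_conj_jd {N d : ℕ} [NeZero N] (hdN : d ∣ N) (g : SL(2, ℤ)) :
    ∃ φ : LaurentSeries ℂ, InfExp N (fun τ => jd d (g • τ)) φ :=
  inf_J_mul_smul_mem_expRing H565.jFun_smul infExp_jFun565 hdN g

/-- The chosen expansion of `j_d ∘ g`. -/
def jdConj (N d : ℕ) [NeZero N] (g : SL(2, ℤ)) : LaurentSeries ℂ :=
  if h : d ∣ N then Classical.choose (exists_conj_jd (N := N) h g) else 0

theorem jdConj_spec {N d : ℕ} [NeZero N] (hdN : d ∣ N) (g : SL(2, ℤ)) :
    InfExp N (fun τ => jd d (g • τ)) (jdConj N d g) := by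
  rw [jdConj, dif_pos hdN]
  exact Classical.choose_spec (exists_conj_jd (N := N) hdN g)

theorem jdConj_one {N d : ℕ} [NeZero N] [NeZero d] (hdN : d ∣ N) :
    jdConj N d 1 = qExpand ℂ N (coeffMap (algebraMap ℚ ℂ) (qExpand ℚ d (jqModC ℚ))) := by
  have hN : 0 < N := Nat.pos_of_ne_zero (NeZero.ne N)
  have hd : 0 < d := Nat.pos_of_ne_zero (NeZero.ne d)
  have : NeZero (d * N) := ⟨(Nat.mul_pos hd hN).ne'⟩
  have h1 : InfExp N (fun τ => jd d τ) (qExpand ℂ (d * N) infJq) :=
    inf_J_mul_exp infExp_jFun565 hd hN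
  have h2 := (jdConj_spec hdN 1).unique' h1 fun τ => by rw [one_smul]
  rw [h2, coeffMap_qExpand, qExpand_qExpand, qExpand_congr (mul_comm N d)]
  rfl

/-- The function `j(dτ)`, `d ∣ N`, as input of the bridge. -/
def genInput (N d : ℕ) [NeZero N] [NeZero d] (hdN : d ∣ N) :
    GenInput (expSys N) (CongruenceSubgroup.Gamma0 N) where
  J := jd d
  J_inv γ hγ τ := jd_smul hdN γ hγ τ
  κ := jdConj N d
  κ_exp g := jdConj_spec hdN g
  ĵ := qExpand ℚ d (jqModC ℚ)
  κ_one := jdConj_one hdN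

/-! ### The unit polynomial for `Γ₀(N)` -/

/-- **Single-pole route, analytic part + bridge** (`N > 1`): the formal unit `û ∈ ℤ((q))` is a
root of a monic `P ∈ ℤ_(ℓ)[Y][X]` (`Y ↦ j`) satisfying the hypotheses of the irreducibility
criterion, and `j, û` generate the full function field. -/
theorem exists_unitPoly_Gamma0 (N : ℕ) [NeZero N] (hN : 1 < N) (ℓ : ℕ) (hℓ : ℓ.Prime)
    (hℓN : ¬ ℓ ∣ N) :
    ∃ (P : Polynomial (Polynomial ↥(GaloisRep.ratLocalizedAt ℓ))) (K : ℕ), 0 < K ∧
      P.Monic ∧ 0 < P.natDegree ∧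
      (P.map (Polynomial.mapRingHom (GaloisRep.ratLocalizedAt ℓ).subtype)).eval₂ (jev ℚ)
        (uHatQ N) = 0 ∧
      (P.coeff (P.natDegree - 1)).natDegree = K ∧
      (P.coeff (P.natDegree - 1)).leadingCoeff = -1 ∧
      (∀ k, k + 1 < P.natDegree → (P.coeff k).natDegree < K) ∧
      IsUnit (P.coeff 0).leadingCoeff ∧
      modularFunctionFieldFull N ≤ IntermediateField.adjoin ℚ {jqModC ℚ, uHatQ N} := by
  classical
  let _ : Fintype (SL(2, ℤ) ⧸ CongruenceSubgroup.Gamma0 N) := Fintype.ofFinite _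
  have hpos : 0 < N := Nat.pos_of_ne_zero (NeZero.ne N)
  obtain ⟨P, h1, -, h3, h4, h5, h6, h7, h8, h9⟩ :=
    (unitInput N hN).exists_unitData ℓ
      (fun r hr => H568.rat_mem_ratLocalizedAt hpos hℓ hℓN r hr)
  refine ⟨P, (unitInput N hN).K, (unitInput N hN).K_pos, h1, h3, h4, h5, h6, h7, h8, ?_⟩
  rw [modularFunctionFieldFull, IntermediateField.adjoin_le_iff]
  rintro x ⟨d, hd, hdN, rfl⟩
  exact h9 (genInput N d hdN)

/-- The integral unit series used by the single-pole route (`j` itself for `N = 1`). -/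
def unitSeries (N : ℕ) : LaurentSeries ℤ := if N = 1 then jqModC ℤ else H568.uHat N

/-- **Single-pole route, all levels.** -/
theorem exists_unitPoly (N : ℕ) [NeZero N] (ℓ : ℕ) (hℓ : ℓ.Prime) (hℓN : ¬ ℓ ∣ N) :
    ∃ (P : Polynomial (Polynomial ↥(GaloisRep.ratLocalizedAt ℓ))) (K : ℕ), 0 < K ∧
      P.Monic ∧ 0 < P.natDegree ∧
      (P.map (Polynomial.mapRingHom (GaloisRep.ratLocalizedAt ℓ).subtype)).eval₂ (jev ℚ)
        (coeffMap (Int.castRingHom ℚ) (unitSeries N)) = 0 ∧
      (P.coeff (P.natDegree - 1)).natDegree = K ∧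
      (P.coeff (P.natDegree - 1)).leadingCoeff = -1 ∧
      (∀ k, k + 1 < P.natDegree → (P.coeff k).natDegree < K) ∧
      IsUnit (P.coeff 0).leadingCoeff ∧
      modularFunctionFieldFull N ≤
        IntermediateField.adjoin ℚ {jqModC ℚ, coeffMap (Int.castRingHom ℚ) (unitSeries N)} := by
  by_cases hN1 : N = 1
  · subst hN1
    have hu : coeffMap (Int.castRingHom ℚ) (unitSeries 1) = jqModC ℚ := by
      rw [unitSeries, if_pos rfl, coeffMap_jqModC]
    rw [hu]
    have hdeg : (Polynomial.X - Polynomial.C Polynomial.X :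
        Polynomial (Polynomial ↥(GaloisRep.ratLocalizedAt ℓ))).natDegree = 1 :=
      Polynomial.natDegree_X_sub_C _
    have hc0 : (Polynomial.X - Polynomial.C Polynomial.X :
        Polynomial (Polynomial ↥(GaloisRep.ratLocalizedAt ℓ))).coeff 0 = -Polynomial.X := by
      simp
    refine ⟨Polynomial.X - Polynomial.C Polynomial.X, 1, one_pos,
      Polynomial.monic_X_sub_C _, by rw [hdeg]; exact one_pos, ?_, ?_, ?_, ?_, ?_, ?_⟩
    · simp [jev]
    · rw [hdeg, Nat.sub_self, hc0, Polynomial.natDegree_neg, Polynomial.natDegree_X]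
    · rw [hdeg, Nat.sub_self, hc0, Polynomial.leadingCoeff_neg, Polynomial.leadingCoeff_X]
    · intro k hk
      rw [hdeg] at hk
      omega
    · rw [hc0, Polynomial.leadingCoeff_neg, Polynomial.leadingCoeff_X]
      exact isUnit_one.neg
    · rw [modularFunctionFieldFull, IntermediateField.adjoin_le_iff]
      rintro x ⟨d, hd, hdN, rfl⟩
      have hd1 : d = 1 := Nat.dvd_one.mp hdN
      subst hd1
      rw [qExpand_one_apply]
      exact IntermediateField.subset_adjoin ℚ _ (Set.mem_insert _ _)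
  · have hN : 1 < N := by
      have := Nat.pos_of_ne_zero (NeZero.ne N)
      omega
    have hu : coeffMap (Int.castRingHom ℚ) (unitSeries N) = uHatQ N := by
      rw [unitSeries, if_neg hN1, uHatQ]
    rw [hu]
    exact exists_unitPoly_Gamma0 N hN ℓ hℓ hℓN

end Fermat.Agent.S28.H267
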